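/-
Hilbert irreducibility (block K2 of SW): the general export, as a `Prop`.

`Export` is the statement produced by the Dörge route (`Expand` + `Main`); `Adapter` turns it into
the literal `Contracts.HITOut`.
-/
import Mathlib

namespace Fermat.Agent.SW.HIT

open Polynomial

/-- **Hilbert irreducibility at an unramified point** (rational roots only).
`f ∈ ℚ[s][x]` (outer variable `x`) has no root in `ℚ(s)`, its leading coefficient does not vanish
at `s₀` and `f(s₀, ·)` is separable.  Then for every modulus `M` there are arbitrarily large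
integers `u ≡ 1 mod M` such that `f(s₀ + M/u, ·)` has no rational root. -/
def Export : Prop :=
  ∀ (f : ℚ[X][X]) (s₀ : ℚ), 0 < f.natDegree → f.leadingCoeff.eval s₀ ≠ 0 →
    (f.map (evalRingHom s₀)).Separable →
    (∀ x : RatFunc ℚ, eval x (f.map (algebraMap ℚ[X] (RatFunc ℚ))) ≠ 0) →
    ∀ M : ℕ, 0 < M → ∀ U0 : ℤ,
      ∃ u : ℤ, U0 ≤ u ∧ (M : ℤ) ∣ u - 1 ∧
        ∀ x : ℚ, eval x (f.map (evalRingHom (s₀ + (M : ℚ) / (u : ℚ)))) ≠ 0

end Fermat.Agent.SW.HIT
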