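/-
The quartic `psi_3 = 3x⁴ + 6ax² + 12bx − a²` of `y² = x³ + ax + b`: separability from
`4a³ + 27b² ≠ 0` by an explicit Bezout identity.
-/
import Mathlib

namespace Fermat.Agent.SW.HIT.Quartic

open Polynomial

/-- `3x⁴ + 6ax² + 12bx − a²`. -/
noncomputable def quartic (a b : ℚ) : ℚ[X] :=
  C 3 * X ^ 4 + C (6 * a) * X ^ 2 + C (12 * b) * X - C (a ^ 2)

theorem eval_quartic (a b x : ℚ) :
    (quartic a b).eval x = 3 * x ^ 4 + 6 * a * x ^ 2 + 12 * b * x - a ^ 2 := by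
  simp [quartic]

theorem derivative_quartic (a b : ℚ) :
    derivative (quartic a b) = C 12 * (X ^ 3 + C a * X + C b) := by
  simp only [quartic, derivative_sub, derivative_add, derivative_mul, derivative_C, zero_mul,
    zero_add, derivative_X_pow, derivative_X, mul_one]
  simp only [map_mul, map_ofNat, Nat.cast_ofNat]
  ring_nf

/-- The Bezout identity `(9x³ + 21ax + 27b)(x³ + ax + b) − (3x² + 4a) psi_3 = 4a³ + 27b²`. -/
theorem bezout (a b : ℚ) :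
    (C 9 * X ^ 3 + C (21 * a) * X + C (27 * b)) * (X ^ 3 + C a * X + C b)
      - (C 3 * X ^ 2 + C (4 * a)) * quartic a b = C (4 * a ^ 3 + 27 * b ^ 2) := by
  simp only [quartic, map_mul, map_add, map_pow, map_ofNat]
  ring

theorem quartic_separable (a b : ℚ) (h : 4 * a ^ 3 + 27 * b ^ 2 ≠ 0) :
    (quartic a b).Separable := by
  rw [Polynomial.separable_def, derivative_quartic]
  refine ⟨-(C (4 * a ^ 3 + 27 * b ^ 2)⁻¹ * (C 3 * X ^ 2 + C (4 * a))),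
    C (4 * a ^ 3 + 27 * b ^ 2)⁻¹ * C (12 : ℚ)⁻¹ * (C 9 * X ^ 3 + C (21 * a) * X + C (27 * b)), ?_⟩
  have hb := bezout a b
  have h12 : (C (12 : ℚ)⁻¹ : ℚ[X]) * C 12 = 1 := by
    rw [← C_mul]; norm_num
  have hΔ : (C (4 * a ^ 3 + 27 * b ^ 2)⁻¹ : ℚ[X]) * C (4 * a ^ 3 + 27 * b ^ 2) = 1 := by
    rw [← C_mul, inv_mul_cancel₀ h, C_1]
  calc -(C (4 * a ^ 3 + 27 * b ^ 2)⁻¹ * (C 3 * X ^ 2 + C (4 * a))) * quartic a b
        + C (4 * a ^ 3 + 27 * b ^ 2)⁻¹ * C (12 : ℚ)⁻¹ * (C 9 * X ^ 3 + C (21 * a) * X + C (27 * b))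
          * (C 12 * (X ^ 3 + C a * X + C b))
      = C (4 * a ^ 3 + 27 * b ^ 2)⁻¹ * (C (12 : ℚ)⁻¹ * C 12)
          * ((C 9 * X ^ 3 + C (21 * a) * X + C (27 * b)) * (X ^ 3 + C a * X + C b))
        - C (4 * a ^ 3 + 27 * b ^ 2)⁻¹ * ((C 3 * X ^ 2 + C (4 * a)) * quartic a b) := by ring
    _ = C (4 * a ^ 3 + 27 * b ^ 2)⁻¹
          * ((C 9 * X ^ 3 + C (21 * a) * X + C (27 * b)) * (X ^ 3 + C a * X + C b)
            - (C 3 * X ^ 2 + C (4 * a)) * quartic a b) := by rw [h12]; ring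
    _ = 1 := by rw [hb, hΔ]

end Fermat.Agent.SW.HIT.Quartic
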