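/-
Hilbert irreducibility (block K2 of SW): from the general export `HIT.Export` to the literal
contract `Contracts.HITOut` (the quartic `psi_3` of a family `y² = x³ + A(s)x + B(s)`).
-/
import Mathlib
import Fermat.Agent.SW.Contracts
import Fermat.Agent.SW.HIT.Export
import Fermat.Agent.SW.HIT.Quartic

namespace Fermat.Agent.SW.HIT.Adapter

open Polynomial Fermat.Agent.SW.Contracts Fermat.Agent.SW.HIT.Quartic

/-- `dA² dB · psi_3`, with cleared denominators, as a polynomial in `x` over `ℚ[s]`. -/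
noncomputable def cleared (A B : RatFunc ℚ) : ℚ[X][X] :=
  C (3 * A.denom ^ 2 * B.denom) * X ^ 4 + C (6 * A.num * A.denom * B.denom) * X ^ 2
    + C (12 * B.num * A.denom ^ 2) * X - C (A.num ^ 2 * B.denom)

theorem key {K : Type*} [Field K] (nA dA nB dB x : K) (hdA : dA ≠ 0) (hdB : dB ≠ 0) :
    3 * dA ^ 2 * dB * x ^ 4 + 6 * nA * dA * dB * x ^ 2 + 12 * nB * dA ^ 2 * x - nA ^ 2 * dB
      = dA ^ 2 * dB * (3 * x ^ 4 + 6 * (nA / dA) * x ^ 2 + 12 * (nB / dB) * x - (nA / dA) ^ 2) := by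
  field_simp

section generic

variable {R S : Type*} [CommRing R] [CommRing S]

theorem natDegree_four [Nontrivial R] (c4 c2 c1 c0 : R) (h : c4 ≠ 0) :
    (C c4 * X ^ 4 + C c2 * X ^ 2 + C c1 * X - C c0 : R[X]).natDegree = 4 := by
  compute_degree!

theorem coeff_four (c4 c2 c1 c0 : R) :
    (C c4 * X ^ 4 + C c2 * X ^ 2 + C c1 * X - C c0 : R[X]).coeff 4 = c4 := by
  simp

theorem map_four (c4 c2 c1 c0 : R) (φ : R →+* S) :
    (C c4 * X ^ 4 + C c2 * X ^ 2 + C c1 * X - C c0 : R[X]).map φ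
      = C (φ c4) * X ^ 4 + C (φ c2) * X ^ 2 + C (φ c1) * X - C (φ c0) := by
  simp

theorem eval_map_four (c4 c2 c1 c0 : R) (φ : R →+* S) (x : S) :
    eval x ((C c4 * X ^ 4 + C c2 * X ^ 2 + C c1 * X - C c0 : R[X]).map φ)
      = φ c4 * x ^ 4 + φ c2 * x ^ 2 + φ c1 * x - φ c0 := by
  simp

end generic

theorem lead_ne_zero (A B : RatFunc ℚ) : (3 * A.denom ^ 2 * B.denom : ℚ[X]) ≠ 0 := by
  have h3 : (3 : ℚ[X]) ≠ 0 := by
    have h : ((3 : ℕ) : ℚ[X]) ≠ 0 := Nat.cast_ne_zero.mpr (by norm_num)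
    exact_mod_cast h
  exact mul_ne_zero (mul_ne_zero h3 (pow_ne_zero _ A.denom_ne_zero)) B.denom_ne_zero

theorem natDegree_cleared (A B : RatFunc ℚ) : (cleared A B).natDegree = 4 :=
  natDegree_four _ _ _ _ (lead_ne_zero A B)

theorem leadingCoeff_cleared (A B : RatFunc ℚ) :
    (cleared A B).leadingCoeff = 3 * A.denom ^ 2 * B.denom := by
  rw [leadingCoeff, natDegree_cleared]
  exact coeff_four _ _ _ _

theorem ev_eq (A : RatFunc ℚ) (s : ℚ) : ev A s = A.num.eval s / A.denom.eval s := by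
  simp [ev, RatFunc.eval, eval₂_id]

theorem C_mul_quartic (u a b : ℚ) :
    C u * quartic a b
      = C (3 * u) * X ^ 4 + C (6 * a * u) * X ^ 2 + C (12 * b * u) * X - C (a ^ 2 * u) := by
  simp only [quartic, map_mul, map_pow, map_ofNat]
  ring

theorem map_cleared (A B : RatFunc ℚ) (s : ℚ) (hA : A.denom.eval s ≠ 0)
    (hB : B.denom.eval s ≠ 0) :
    (cleared A B).map (evalRingHom s)
      = C (A.denom.eval s ^ 2 * B.denom.eval s) * quartic (ev A s) (ev B s) := by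
  rw [C_mul_quartic, ev_eq, ev_eq]
  have e1 : 3 * (A.denom.eval s ^ 2 * B.denom.eval s)
      = 3 * A.denom.eval s ^ 2 * B.denom.eval s := by ring
  have e2 : 6 * (A.num.eval s / A.denom.eval s) * (A.denom.eval s ^ 2 * B.denom.eval s)
      = 6 * A.num.eval s * A.denom.eval s * B.denom.eval s := by field_simp
  have e3 : 12 * (B.num.eval s / B.denom.eval s) * (A.denom.eval s ^ 2 * B.denom.eval s)
      = 12 * B.num.eval s * A.denom.eval s ^ 2 := by field_simp
  have e4 : (A.num.eval s / A.denom.eval s) ^ 2 * (A.denom.eval s ^ 2 * B.denom.eval s)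
      = A.num.eval s ^ 2 * B.denom.eval s := by field_simp
  rw [e1, e2, e3, e4, cleared, map_four]
  simp only [coe_evalRingHom, eval_mul, eval_pow, eval_ofNat]

theorem eval_cleared_ratFunc (A B x : RatFunc ℚ) :
    eval x ((cleared A B).map (algebraMap ℚ[X] (RatFunc ℚ)))
      = (algebraMap ℚ[X] (RatFunc ℚ) A.denom) ^ 2 * algebraMap ℚ[X] (RatFunc ℚ) B.denom
          * (3 * x ^ 4 + 6 * A * x ^ 2 + 12 * B * x - A ^ 2) := by
  have hdA : algebraMap ℚ[X] (RatFunc ℚ) A.denom ≠ 0 :=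
    (map_ne_zero_iff _ (RatFunc.algebraMap_injective ℚ)).mpr A.denom_ne_zero
  have hdB : algebraMap ℚ[X] (RatFunc ℚ) B.denom ≠ 0 :=
    (map_ne_zero_iff _ (RatFunc.algebraMap_injective ℚ)).mpr B.denom_ne_zero
  have hk := key (algebraMap ℚ[X] (RatFunc ℚ) A.num) (algebraMap ℚ[X] (RatFunc ℚ) A.denom)
    (algebraMap ℚ[X] (RatFunc ℚ) B.num) (algebraMap ℚ[X] (RatFunc ℚ) B.denom) x hdA hdB
  rw [RatFunc.num_div_denom A, RatFunc.num_div_denom B] at hk
  rw [← hk, cleared, eval_map_four]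
  simp only [map_mul, map_pow, map_ofNat]

/-- Large `u` avoid any finite set of parameters. -/
theorem exists_bound_avoid (s₀ : ℚ) (M : ℕ) (hM : 0 < M) (T : Finset ℚ) :
    ∃ U0 : ℤ, 1 ≤ U0 ∧ ∀ u : ℤ, U0 ≤ u → s₀ + (M : ℚ) / (u : ℚ) ∉ T := by
  classical
  induction T using Finset.induction_on with
  | empty => exact ⟨1, le_refl _, fun u _ => by simp⟩
  | insert t T _ ih =>
    obtain ⟨U0, hU0, hT⟩ := ih
    by_cases hex : ∃ u0 : ℤ, 1 ≤ u0 ∧ s₀ + (M : ℚ) / (u0 : ℚ) = t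
    · obtain ⟨u0, hu0, hu0t⟩ := hex
      refine ⟨max U0 (u0 + 1), le_max_of_le_left hU0, fun u hu => ?_⟩
      have hu1 : U0 ≤ u := le_trans (le_max_left _ _) hu
      have hu2 : u0 + 1 ≤ u := le_trans (le_max_right _ _) hu
      rw [Finset.mem_insert, not_or]
      refine ⟨fun heq => ?_, hT u hu1⟩
      have hMq : (M : ℚ) ≠ 0 := by exact_mod_cast hM.ne'
      have hu0q : (u0 : ℚ) ≠ 0 := by
        have : (0 : ℤ) < u0 := by omega
        exact_mod_cast this.ne'
      have huq : (u : ℚ) ≠ 0 := by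
        have : (0 : ℤ) < u := by omega
        exact_mod_cast this.ne'
      have h1 : (M : ℚ) / (u : ℚ) = (M : ℚ) / (u0 : ℚ) := by
        have := heq.trans hu0t.symm
        linarith
      have h2 : (u : ℚ) = (u0 : ℚ) := by
        field_simp at h1
        linarith
      have h3 : u = u0 := by exact_mod_cast h2
      omega
    · refine ⟨U0, hU0, fun u hu => ?_⟩
      rw [Finset.mem_insert, not_or]
      refine ⟨fun heq => hex ⟨u, le_trans hU0 hu, heq⟩, hT u hu⟩

theorem close_of_dvd_sub_one (s₀ : ℚ) (M : ℕ) (u : ℤ) (hu : 1 ≤ u) (hdvd : (M : ℤ) ∣ u - 1) :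
    Close M (s₀ + (M : ℚ) / (u : ℚ)) s₀ := by
  refine ⟨(u : ℚ)⁻¹, by ring, ?_⟩
  rw [Rat.inv_intCast_den, if_neg (by omega)]
  obtain ⟨k, hk⟩ := hdvd
  have hcop : IsCoprime u (M : ℤ) := ⟨1, -k, by rw [one_mul]; linarith⟩
  have := Int.isCoprime_iff_gcd_eq_one.mp hcop
  rwa [Int.gcd_eq_natAbs, Int.natAbs_natCast] at this

/-- **Adapter**: the general export implies the literal contract `HITOut`. -/
theorem hitOut_of_export (h : Export) : HITOut := by
  classical
  intro A B s₀ hA0 hB0 hΔ hroot M hM bad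
  have hdeg : 0 < (cleared A B).natDegree := by rw [natDegree_cleared]; norm_num
  have hlc : (cleared A B).leadingCoeff.eval s₀ ≠ 0 := by
    rw [leadingCoeff_cleared]
    simp only [eval_mul, eval_pow, eval_ofNat]
    exact mul_ne_zero (mul_ne_zero (by norm_num) (pow_ne_zero _ hA0)) hB0
  have hsep : ((cleared A B).map (evalRingHom s₀)).Separable := by
    rw [map_cleared A B s₀ hA0 hB0]
    refine Separable.unit_mul ?_ (quartic_separable _ _ hΔ)
    exact isUnit_C.mpr (IsUnit.mk0 _ (mul_ne_zero (pow_ne_zero _ hA0) hB0))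
  have hnr : ∀ x : RatFunc ℚ, eval x ((cleared A B).map (algebraMap ℚ[X] (RatFunc ℚ))) ≠ 0 := by
    intro x
    rw [eval_cleared_ratFunc]
    have hdA : algebraMap ℚ[X] (RatFunc ℚ) A.denom ≠ 0 :=
      (map_ne_zero_iff _ (RatFunc.algebraMap_injective ℚ)).mpr A.denom_ne_zero
    have hdB : algebraMap ℚ[X] (RatFunc ℚ) B.denom ≠ 0 :=
      (map_ne_zero_iff _ (RatFunc.algebraMap_injective ℚ)).mpr B.denom_ne_zero
    exact mul_ne_zero (mul_ne_zero (pow_ne_zero _ hdA) hdB) (hroot x)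
  obtain ⟨U0, hU0, havoid⟩ := exists_bound_avoid s₀ M hM
    (bad ∪ A.denom.roots.toFinset ∪ B.denom.roots.toFinset)
  obtain ⟨u, hu, hdvd, hx⟩ := h (cleared A B) s₀ hdeg hlc hsep hnr M hM U0
  have hav := havoid u hu
  simp only [Finset.mem_union, Multiset.mem_toFinset, not_or, mem_roots A.denom_ne_zero,
    mem_roots B.denom_ne_zero, IsRoot.def] at hav
  obtain ⟨⟨hbad, hA1⟩, hB1⟩ := hav
  refine ⟨s₀ + (M : ℚ) / (u : ℚ), close_of_dvd_sub_one s₀ M u (le_trans hU0 hu) hdvd, hbad, hA1,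
    hB1, fun x hx0 => hx x ?_⟩
  rw [map_cleared A B _ hA1 hB1, eval_mul, eval_C, eval_quartic, hx0, mul_zero]

end Fermat.Agent.SW.HIT.Adapter
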