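import Fermat.Agent.SW.HIT.PolyTailC

/-!
# The interface `Expand → Main` (shape agreed with helper25's `Main.exists_good_of_expansion`)
-/

namespace Fermat.Agent.SW.HIT.Expand

open Polynomial Filter Topology
open scoped Polynomial.Bivariate

noncomputable section

/-- **Expansion interface.** For `f ∈ ℚ[s][x]` with `lc(s₀) ≠ 0`, `f(s₀,·)` separable, no root in
`ℚ(s)`, and `M ≠ 0`: the branch series `g i`, with geometric bounds, such that
(h1) a rational root at `s₀ + M/u` (`u ≥ U1`) makes some `Y_i(u) = Σ_k g i k u^(d-k)` an integer;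
(h2) a branch without tail is not integer valued at `d + 2` increasing integers `≥ U1`. -/
theorem exists_expansion (f : ℚ[X][Y]) (s₀ : ℚ) (hlead : f.leadingCoeff.eval s₀ ≠ 0)
    (hsep : (f.map (evalRingHom s₀)).Separable)
    (hroot : ∀ r : RatFunc ℚ, (f.map (algebraMap ℚ[X] (RatFunc ℚ))).eval r ≠ 0)
    (M : ℚ) (hM : M ≠ 0) :
    ∃ (d : ℕ) (g : Fin f.natDegree → ℕ → ℂ) (A R : ℝ) (U1 : ℤ), 0 ≤ A ∧ 0 < R ∧
      (∀ i k, ‖g i k‖ ≤ A * R ^ k) ∧
      (∀ u : ℤ, U1 ≤ u → (∃ x : ℚ, (f.map (evalRingHom (s₀ + M / u))).eval x = 0) →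
        ∃ i : Fin f.natDegree, ∃ z : ℤ,
          HasSum (fun k => g i k * ((u : ℂ) ^ d * ((u : ℂ)⁻¹) ^ k)) (z : ℂ)) ∧
      (∀ i, (∀ k, d < k → g i k = 0) → ∀ v : Fin (d + 2) → ℤ, StrictMono v → U1 ≤ v 0 →
        ¬ ∀ j, ∃ z : ℤ, HasSum (fun k => g i k * ((v j : ℂ) ^ d * ((v j : ℂ)⁻¹) ^ k)) (z : ℂ)) := by
  obtain ⟨P⟩ := exists_pack f s₀ hlead hsep M
  have hMpos : (0 : ℝ) < |(M : ℝ)| := abs_pos.2 (by exact_mod_cast hM)
  have hRpos : (0 : ℝ) < |(M : ℝ)| / P.ρ := div_pos hMpos P.hρ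
  set U1 : ℤ := ⌊|(M : ℝ)| / P.ρ⌋ + 1 with hU1
  have hU1lt : ∀ u : ℤ, U1 ≤ u → |(M : ℝ)| / P.ρ < u := by
    intro u hu
    have h1 : |(M : ℝ)| / P.ρ < (⌊|(M : ℝ)| / P.ρ⌋ : ℝ) + 1 := Int.lt_floor_add_one _
    have h2 : ((U1 : ℤ) : ℝ) ≤ u := by exact_mod_cast hu
    rw [hU1] at h2
    push_cast at h2
    linarith
  refine ⟨Homog.sDeg f, P.g, P.A, |(M : ℝ)| / P.ρ, U1, P.hA, hRpos, P.norm_g_le, ?_, ?_⟩
  · rintro u hu ⟨x, hx⟩
    obtain ⟨i, w, hw⟩ := P.hasSum_of_root u (hU1lt u hu) x hx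
    have hu0 : (0 : ℝ) < u := hRpos.trans (hU1lt u hu)
    have huC : (u : ℂ) ≠ 0 := by
      have : u ≠ 0 := by intro h; rw [h] at hu0; simp at hu0
      exact_mod_cast this
    refine ⟨i, w, ?_⟩
    have := hw.mul_left ((u : ℂ) ^ Homog.sDeg f)
    rw [mul_div_cancel₀ _ (pow_ne_zero _ huC)] at this
    refine this.congr_fun ?_ |> fun h => h
    intro k
    ring
  · intro i htail v hv hv0 hall
    -- restrict to the first `d + 1` points
    have hpos : ∀ j, (0 : ℝ) < v j := by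
      intro j
      have h1 : v 0 ≤ v j := hv.monotone (Fin.zero_le j)
      have h2 : |(M : ℝ)| / P.ρ < v 0 := hU1lt _ hv0
      have h3 : ((v 0 : ℤ) : ℝ) ≤ v j := by exact_mod_cast h1
      linarith
    have hne : ∀ j, v j ≠ 0 := by
      intro j h
      have := hpos j
      rw [h] at this; simp at this
    refine P.poly_tail_false hM hroot i htail (fun j => v (Fin.castSucc j))
      (fun a b hab => Fin.castSucc_injective _ (hv.injective hab)) (fun j => hne _) ?_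
    intro j
    obtain ⟨z, hz⟩ := hall (Fin.castSucc j)
    refine ⟨z, ?_⟩
    set u : ℂ := (v (Fin.castSucc j) : ℂ) with hu
    have huC : u ≠ 0 := by
      rw [hu]; exact_mod_cast hne _
    have hfin : HasSum (fun k => P.g i k * (u ^ Homog.sDeg f * u⁻¹ ^ k))
        (∑ k ∈ Finset.range (Homog.sDeg f + 1), P.g i k * (u ^ Homog.sDeg f * u⁻¹ ^ k)) := by
      apply hasSum_sum_of_ne_finset_zero
      intro k hk
      have : Homog.sDeg f < k := by
        by_contra h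
        exact hk (Finset.mem_range.2 (by omega))
      rw [htail k this, zero_mul]
    have heq := hz.unique hfin
    rw [eq_div_iff (pow_ne_zero _ huC), heq, Finset.sum_mul]
    refine Finset.sum_congr rfl fun k _ => ?_
    ring

end

end Fermat.Agent.SW.HIT.Expand
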