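import Mathlib

/-!
# MOONSHOT S52, block K2 (Hilbert irreducibility): iterated Rolle for a tower of derivatives

`exists_tower_eq_zero` : if `h 0, h 1, …, h m` is a tower of functions on an open interval `(a, b)`
(`h (i+1)` is the derivative of `h i` there) and `h 0` vanishes at `m + 1` points
`z 0 < z 1 < … < z m` of `(a, b)`, then `h m` vanishes somewhere in `[z 0, z m]`.
-/

set_option autoImplicit false

open Set

namespace Fermat.Agent.SW.HIT.Rolle

/-- **Iterated Rolle**, tower form. -/
theorem exists_tower_eq_zero : ∀ (m : ℕ) (h : ℕ → ℝ → ℝ) (a b : ℝ),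
    (∀ i < m, ∀ x ∈ Ioo a b, HasDerivAt (h i) (h (i + 1) x) x) →
    ∀ z : Fin (m + 1) → ℝ, StrictMono z → (∀ j, z j ∈ Ioo a b) → (∀ j, h 0 (z j) = 0) →
      ∃ ξ ∈ Icc (z 0) (z (Fin.last m)), h m ξ = 0 := by
  intro m
  induction m with
  | zero =>
    intro h a b _ z _ _ hz0
    exact ⟨z 0, ⟨le_refl _, le_refl _⟩, hz0 0⟩
  | succ m ih =>
    intro h a b hder z hz hzI hz0
    -- Rolle between consecutive zeros
    have hstep : ∀ i : Fin (m + 1), ∃ w ∈ Ioo (z i.castSucc) (z i.succ), h 1 w = 0 := by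
      intro i
      have hlt : z i.castSucc < z i.succ := hz (Fin.castSucc_lt_succ)
      have hsub : Icc (z i.castSucc) (z i.succ) ⊆ Ioo a b := fun x hx =>
        ⟨lt_of_lt_of_le (hzI _).1 hx.1, lt_of_le_of_lt hx.2 (hzI _).2⟩
      have hcont : ContinuousOn (h 0) (Icc (z i.castSucc) (z i.succ)) := fun x hx =>
        ((hder 0 (Nat.succ_pos m) x (hsub hx)).continuousAt).continuousWithinAt
      have heq : h 0 (z i.castSucc) = h 0 (z i.succ) := by rw [hz0, hz0]
      obtain ⟨c, hc, hc0⟩ := exists_hasDerivAt_eq_zero hlt hcont heq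
        (fun x hx => hder 0 (Nat.succ_pos m) x (hsub (Ioo_subset_Icc_self hx)))
      exact ⟨c, hc, hc0⟩
    choose w hw hw0 using hstep
    have hwmono : StrictMono w := by
      intro i j hij
      have h1 : w i < z i.succ := (hw i).2
      have h2 : z i.succ ≤ z j.castSucc := by
        apply hz.monotone
        rw [Fin.le_def]
        simp only [Fin.val_succ, Fin.val_castSucc]
        exact hij
      have h3 : z j.castSucc < w j := (hw j).1
      exact lt_of_lt_of_le h1 (h2.trans h3.le)
    have hwI : ∀ j, w j ∈ Ioo a b := fun j =>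
      ⟨lt_trans (hzI _).1 (hw j).1, lt_trans (hw j).2 (hzI _).2⟩
    obtain ⟨ξ, hξ, hξ0⟩ := ih (fun i => h (i + 1)) a b
      (fun i hi x hx => hder (i + 1) (Nat.succ_lt_succ hi) x hx) w hwmono hwI hw0
    refine ⟨ξ, ⟨?_, ?_⟩, hξ0⟩
    · have : z 0 < w 0 := by
        have := (hw 0).1
        simpa using this
      exact this.le.trans hξ.1
    · have : w (Fin.last m) < z (Fin.last (m + 1)) := by
        have := (hw (Fin.last m)).2
        simpa using this
      exact hξ.2.trans this.le

end Fermat.Agent.SW.HIT.Rolle
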