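import Mathlib
import Fermat.Agent.SW.HIT.Rolle

/-!
# MOONSHOT S52, block K2 (Hilbert irreducibility): divided differences

`wt u j = (∏_{l ≠ j} (u j - u l))⁻¹` are the weights of the divided difference of order `m` at the
nodes `u 0 < … < u m`.

* `sum_wt_mul_eq_tower` : mean value theorem for divided differences (tower form):
  `∑ j, wt u j * g 0 (u j) = g m ξ / m!` for some `ξ ∈ [u 0, u m]`;
* `sum_wt_mul_pow_eq_zero` : the divided difference of order `m` kills `x ^ e`, `e < m`;
* `sum_wt_mul_inv_pow` : for positive nodes and `k ≥ 1`,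
  `∑ j, wt u j * (u j)⁻¹ ^ k = (-1) ^ m * choose (k + m - 1) m * ξ⁻¹ ^ (k + m)`, `ξ ∈ [u 0, u m]`.
-/

set_option autoImplicit false

open Polynomial Finset Set

namespace Fermat.Agent.SW.HIT.DivDiff

/-- the weights of the divided difference at the nodes `u` -/
noncomputable def wt {m : ℕ} (u : Fin (m + 1) → ℝ) (j : Fin (m + 1)) : ℝ :=
  (∏ l ∈ Finset.univ.erase j, (u j - u l))⁻¹

/-- **Mean value theorem for divided differences**, tower form. -/
theorem sum_wt_mul_eq_tower {m : ℕ} (g : ℕ → ℝ → ℝ) (a b : ℝ)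
    (hder : ∀ i < m, ∀ x ∈ Ioo a b, HasDerivAt (g i) (g (i + 1) x) x)
    (u : Fin (m + 1) → ℝ) (hu : StrictMono u) (huI : ∀ j, u j ∈ Ioo a b) :
    ∃ ξ ∈ Icc (u 0) (u (Fin.last m)), ∑ j, wt u j * g 0 (u j) = g m ξ / (m.factorial : ℝ) := by
  classical
  set p : ℝ[X] := Lagrange.interpolate Finset.univ u (fun j => g 0 (u j)) with hp
  have hinj : Set.InjOn u (↑(Finset.univ : Finset (Fin (m + 1)))) := hu.injective.injOn
  have hdeg : p.degree < ((Finset.univ : Finset (Fin (m + 1))).card : WithBot ℕ) :=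
    Lagrange.degree_interpolate_lt _ hinj
  have heval : ∀ j, p.eval (u j) = g 0 (u j) := fun j =>
    Lagrange.eval_interpolate_at_node _ hinj (Finset.mem_univ j)
  -- the tower `g i - p^{(i)}`
  obtain ⟨ξ, hξ, hξ0⟩ := Rolle.exists_tower_eq_zero m
    (fun i x => g i x - (derivative^[i] p).eval x) a b
    (fun i hi x hx => by
      have h1 := hder i hi x hx
      have h2 := (derivative^[i] p).hasDerivAt x
      rw [← Function.iterate_succ_apply' derivative i p] at h2
      exact h1.sub h2)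
    u hu huI (fun j => by simp [heval j])
  refine ⟨ξ, hξ, ?_⟩
  have hk : m < (Finset.univ : Finset (Fin (m + 1))).card := by simp
  have hsum := Lagrange.eval_iterate_derivative_eq_sum hinj hdeg hk ξ
  have hcard : (Finset.univ : Finset (Fin (m + 1))).card - (m + 1) = 0 := by simp
  rw [hcard] at hsum
  simp only [Finset.powersetCard_zero, Finset.sum_singleton, Finset.prod_empty, mul_one] at hsum
  have hfac : (m.factorial : ℝ) ≠ 0 := Nat.cast_ne_zero.mpr m.factorial_ne_zero
  have hg : g m ξ = (derivative^[m] p).eval ξ := sub_eq_zero.mp hξ0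
  rw [hg, hsum, mul_comm, mul_div_assoc, div_self hfac, mul_one]
  refine Finset.sum_congr rfl fun j _ => ?_
  rw [heval j, wt, div_eq_mul_inv, mul_comm]

/-- the divided difference of order `m` kills the monomials of degree `< m` -/
theorem sum_wt_mul_pow_eq_zero {m : ℕ} (u : Fin (m + 1) → ℝ) (hu : StrictMono u) {e : ℕ}
    (he : e < m) : ∑ j, wt u j * (u j) ^ e = 0 := by
  classical
  have hinj : Set.InjOn u (↑(Finset.univ : Finset (Fin (m + 1)))) := hu.injective.injOn
  have hdeg : (X ^ e : ℝ[X]).degree < ((Finset.univ : Finset (Fin (m + 1))).card : WithBot ℕ) := by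
    rw [degree_X_pow]
    simp only [Finset.card_univ, Fintype.card_fin]
    exact_mod_cast Nat.lt_succ_of_lt he
  have h := Lagrange.coeff_eq_sum hinj hdeg
  simp only [Finset.card_univ, Fintype.card_fin, Nat.add_sub_cancel, coeff_X_pow, eval_pow,
    eval_X] at h
  rw [if_neg (by omega)] at h
  rw [h]
  refine Finset.sum_congr rfl fun j _ => ?_
  rw [wt, div_eq_mul_inv, mul_comm]

/-- the coefficients of the derivative tower of `x ↦ x⁻¹ ^ k` -/
noncomputable def negCoef (k i : ℕ) : ℝ := ∏ t ∈ Finset.range i, (-((k + t : ℕ) : ℝ))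

theorem negCoef_succ (k i : ℕ) : negCoef k (i + 1) = negCoef k i * (-((k + i : ℕ) : ℝ)) := by
  rw [negCoef, negCoef, Finset.prod_range_succ]

theorem negCoef_eq (k m : ℕ) :
    negCoef k m = (-1) ^ m * ((m.factorial : ℝ) * ((k + m - 1).choose m : ℝ)) := by
  have h1 : negCoef k m = (-1) ^ m * ((k.ascFactorial m : ℕ) : ℝ) := by
    induction m with
    | zero => simp [negCoef]
    | succ m ih =>
      rw [negCoef_succ, ih, Nat.ascFactorial_succ, pow_succ]
      push_cast
      ring
  rw [h1, Nat.ascFactorial_eq_factorial_mul_choose']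
  push_cast
  ring

/-- **Divided differences of the negative powers.** -/
theorem sum_wt_mul_inv_pow {m : ℕ} (u : Fin (m + 1) → ℝ) (hu : StrictMono u) (hpos : 0 < u 0)
    (k : ℕ) :
    ∃ ξ ∈ Icc (u 0) (u (Fin.last m)), ∑ j, wt u j * ((u j)⁻¹) ^ k =
      (-1) ^ m * ((k + m - 1).choose m : ℝ) * (ξ⁻¹) ^ (k + m) := by
  have hupos : ∀ j, 0 < u j := fun j => lt_of_lt_of_le hpos (hu.monotone (Fin.zero_le j))
  obtain ⟨ξ, hξ, hsum⟩ := sum_wt_mul_eq_tower
    (fun i x => negCoef k i * x ^ (-((k + i : ℕ) : ℤ))) 0 (u (Fin.last m) + 1)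
    (fun i _ x hx => by
      have hx0 : x ≠ 0 := hx.1.ne'
      have h := (hasDerivAt_zpow (-((k + i : ℕ) : ℤ)) x (Or.inl hx0)).const_mul (negCoef k i)
      refine h.congr_deriv ?_
      rw [negCoef_succ]
      have : (-((k + (i + 1) : ℕ) : ℤ)) = -((k + i : ℕ) : ℤ) - 1 := by push_cast; ring
      rw [this]
      push_cast
      ring)
    u hu (fun j => ⟨hupos j, lt_of_le_of_lt (hu.monotone (Fin.le_last j)) (lt_add_one _)⟩)
  refine ⟨ξ, hξ, ?_⟩
  have hfac : (m.factorial : ℝ) ≠ 0 := Nat.cast_ne_zero.mpr m.factorial_ne_zero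
  have hconv : ∀ (x : ℝ) (n : ℕ), x ^ (-(n : ℤ)) = (x⁻¹) ^ n := fun x n => by
    rw [zpow_neg, zpow_natCast, inv_pow]
  simp only [negCoef, Finset.range_zero, Finset.prod_empty, one_mul, add_zero] at hsum
  simp only [hconv] at hsum
  rw [hsum, ← negCoef, negCoef_eq]
  field_simp
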