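import Mathlib
import Fermat.Agent.SW.HIT.DivDiff

/-!
# MOONSHOT S52, block K2 (Hilbert irreducibility): bounds for the divided differences of `x⁻¹ ^ k`
and integrality of the weights at integer nodes
-/

set_option autoImplicit false

open Finset Set

namespace Fermat.Agent.SW.HIT.CountAux

open Fermat.Agent.SW.HIT.DivDiff

variable {m : ℕ}

/-- `S u e k = ∑ j, wt u j * (u j ^ e * (u j)⁻¹ ^ k)` : the divided difference of `x ^ (e - k)` -/
noncomputable def S (u : Fin (m + 1) → ℝ) (e k : ℕ) : ℝ :=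
  ∑ j, wt u j * ((u j) ^ e * ((u j)⁻¹) ^ k)

theorem S_eq_zero (u : Fin (m + 1) → ℝ) (hu : StrictMono u) (hpos : 0 < u 0) {e k : ℕ}
    (he : e < m) (hk : k ≤ e) : S u e k = 0 := by
  have hupos : ∀ j, 0 < u j := fun j => lt_of_lt_of_le hpos (hu.monotone (Fin.zero_le j))
  have h : ∀ j, (u j) ^ e * ((u j)⁻¹) ^ k = (u j) ^ (e - k) := fun j => by
    have hne : u j ≠ 0 := (hupos j).ne'
    rw [inv_pow, ← div_eq_mul_inv, pow_sub₀ _ hne hk, div_eq_mul_inv]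
  simp only [S, h]
  exact sum_wt_mul_pow_eq_zero u hu (lt_of_le_of_lt (Nat.sub_le e k) he)

theorem S_eq_inv (u : Fin (m + 1) → ℝ) (hu : StrictMono u) (hpos : 0 < u 0) {e k : ℕ}
    (hk : e ≤ k) : S u e k = ∑ j, wt u j * ((u j)⁻¹) ^ (k - e) := by
  have hupos : ∀ j, 0 < u j := fun j => lt_of_lt_of_le hpos (hu.monotone (Fin.zero_le j))
  refine Finset.sum_congr rfl fun j _ => ?_
  have hne : u j ≠ 0 := (hupos j).ne'
  congr 1
  obtain ⟨t, rfl⟩ := Nat.exists_eq_add_of_le hk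
  rw [Nat.add_sub_cancel_left, pow_add, ← mul_assoc, ← mul_pow, mul_inv_cancel₀ hne, one_pow,
    one_mul]

/-- upper bound: `|S u e k| ≤ 2 ^ (k - e + m - 1) * B⁻¹ ^ (k - e + m)` for `e < k`, `B ≤ u 0` -/
theorem abs_S_le (u : Fin (m + 1) → ℝ) (hu : StrictMono u) {B : ℝ} (hB : 0 < B)
    (hB0 : B ≤ u 0) {e k : ℕ} (hk : e ≤ k) :
    |S u e k| ≤ 2 ^ (k - e + m - 1) * (B⁻¹) ^ (k - e + m) := by
  have hpos : 0 < u 0 := lt_of_lt_of_le hB hB0
  rw [S_eq_inv u hu hpos hk]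
  obtain ⟨ξ, hξ, h⟩ := sum_wt_mul_inv_pow u hu hpos (k - e)
  rw [h]
  have hξpos : 0 < ξ := lt_of_lt_of_le hpos hξ.1
  have h1 : ξ⁻¹ ≤ B⁻¹ := inv_anti₀ hB (hB0.trans hξ.1)
  have h2 : (0 : ℝ) ≤ ξ⁻¹ := (inv_pos.mpr hξpos).le
  rw [abs_mul, abs_mul, abs_pow, abs_neg, abs_one, one_pow, one_mul, abs_pow,
    abs_of_nonneg h2, abs_of_nonneg (Nat.cast_nonneg _)]
  have h3 : ((k - e + m - 1).choose m : ℝ) ≤ 2 ^ (k - e + m - 1) := by
    exact_mod_cast Nat.choose_le_two_pow _ _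
  exact mul_le_mul h3 (pow_le_pow_left₀ h2 h1 _) (pow_nonneg h2 _) (by positivity)

/-- lower bound: `(2B)⁻¹ ^ (k - e + m) ≤ |S u e k|` for `e < k`, `u m ≤ 2 B` -/
theorem le_abs_S (u : Fin (m + 1) → ℝ) (hu : StrictMono u) (hpos : 0 < u 0) {B : ℝ}
    (hB1 : u (Fin.last m) ≤ 2 * B) {e k : ℕ} (hk : e < k) :
    ((2 * B)⁻¹) ^ (k - e + m) ≤ |S u e k| := by
  rw [S_eq_inv u hu hpos hk.le]
  obtain ⟨ξ, hξ, h⟩ := sum_wt_mul_inv_pow u hu hpos (k - e)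
  rw [h]
  have hξpos : 0 < ξ := lt_of_lt_of_le hpos hξ.1
  have h2 : (0 : ℝ) ≤ ξ⁻¹ := (inv_pos.mpr hξpos).le
  have hBpos : 0 < 2 * B := lt_of_lt_of_le hξpos (hξ.2.trans hB1)
  have h1 : (2 * B)⁻¹ ≤ ξ⁻¹ := inv_anti₀ hξpos (hξ.2.trans hB1)
  rw [abs_mul, abs_mul, abs_pow, abs_neg, abs_one, one_pow, one_mul, abs_pow,
    abs_of_nonneg h2, abs_of_nonneg (Nat.cast_nonneg _)]
  have h3 : (1 : ℝ) ≤ ((k - e + m - 1).choose m : ℝ) := by
    have : 0 < (k - e + m - 1).choose m := Nat.choose_pos (by omega)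
    exact_mod_cast this
  calc ((2 * B)⁻¹) ^ (k - e + m) ≤ (ξ⁻¹) ^ (k - e + m) :=
        pow_le_pow_left₀ (inv_pos.mpr hBpos).le h1 _
    _ = 1 * (ξ⁻¹) ^ (k - e + m) := (one_mul _).symm
    _ ≤ _ := mul_le_mul_of_nonneg_right h3 (pow_nonneg h2 _)

/-! ### integer nodes -/

/-- the integer `∏_{l ≠ j} (u j - u l)` -/
def den (u : Fin (m + 1) → ℤ) (j : Fin (m + 1)) : ℤ := ∏ l ∈ Finset.univ.erase j, (u j - u l)

theorem den_ne_zero (u : Fin (m + 1) → ℤ) (hu : StrictMono u) (j : Fin (m + 1)) : den u j ≠ 0 := by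
  rw [den, Finset.prod_ne_zero_iff]
  intro l hl
  have : l ≠ j := (Finset.mem_erase.mp hl).1
  exact sub_ne_zero.mpr (fun h => this (hu.injective h).symm)

theorem abs_den_le (u : Fin (m + 1) → ℤ) (hu : StrictMono u) (L : ℕ)
    (hL : u (Fin.last m) - u 0 ≤ L) (j : Fin (m + 1)) : |den u j| ≤ (L : ℤ) ^ m := by
  rw [den, Finset.abs_prod]
  have hcard : (Finset.univ.erase j).card = m := by simp
  calc ∏ l ∈ Finset.univ.erase j, |u j - u l| ≤ ∏ _l ∈ Finset.univ.erase j, (L : ℤ) := by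
        refine Finset.prod_le_prod (fun l _ => abs_nonneg _) fun l _ => ?_
        have h0j : u 0 ≤ u j := hu.monotone (Fin.zero_le j)
        have h0l : u 0 ≤ u l := hu.monotone (Fin.zero_le l)
        have hjm : u j ≤ u (Fin.last m) := hu.monotone (Fin.le_last j)
        have hlm : u l ≤ u (Fin.last m) := hu.monotone (Fin.le_last l)
        rw [abs_le]
        constructor <;> linarith
    _ = (L : ℤ) ^ m := by rw [Finset.prod_const, hcard]

theorem wt_cast (u : Fin (m + 1) → ℤ) (j : Fin (m + 1)) :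
    wt (fun i => (u i : ℝ)) j = ((den u j : ℤ) : ℝ)⁻¹ := by
  rw [wt, den]
  push_cast
  rfl

end Fermat.Agent.SW.HIT.CountAux
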