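import Mathlib
import Fermat.Agent.SW.HIT.CountAux

/-!
# MOONSHOT S52, block K2 (Hilbert irreducibility): the counting lemma

`Y(u) = u ^ d * Φ(1/u)`, `Φ(w) = ∑ φ k * w ^ k` convergent near `0`. If `Φ` is not a polynomial of
degree `≤ d` (some `φ k ≠ 0`, `k > d`), then for `B` large `Y` is not integer-valued at any `d + 2`
integers `B ≤ u 0 < … < u (d+1) ≤ u 0 + L` (`exists_bound_not_all_int`): the divided difference of
order `d + 1` kills the polynomial part, and on the tail it is nonzero and tiny.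
-/

set_option autoImplicit false

open Finset Set

namespace Fermat.Agent.SW.HIT.Count

open Fermat.Agent.SW.HIT.DivDiff Fermat.Agent.SW.HIT.CountAux

/-- the divided difference of `Y` in terms of the expansion coefficients -/
theorem hasSum_wt_mul {m d : ℕ} (φ : ℕ → ℂ) (u : Fin (m + 1) → ℝ) (Y : Fin (m + 1) → ℂ)
    (hY : ∀ j, HasSum (fun k => φ k * (((u j : ℝ) : ℂ) ^ d * (((u j : ℝ) : ℂ)⁻¹) ^ k)) (Y j)) :
    HasSum (fun k => φ k * ((S u d k : ℝ) : ℂ)) (∑ j, ((wt u j : ℝ) : ℂ) * Y j) := by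
  have h := hasSum_sum (s := Finset.univ) fun j _ => (hY j).mul_left ((wt u j : ℝ) : ℂ)
  have heq : (fun k => φ k * ((S u d k : ℝ) : ℂ)) = fun k =>
      ∑ j, ((wt u j : ℝ) : ℂ) * (φ k * (((u j : ℝ) : ℂ) ^ d * (((u j : ℝ) : ℂ)⁻¹) ^ k)) := by
    funext k
    rw [S]
    push_cast
    rw [Finset.mul_sum]
    refine Finset.sum_congr rfl fun j _ => ?_
    ring
  rw [heq]
  exact h

/-- a series whose terms vanish below `k0` and are geometrically bounded above `k0` is close to its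
`k0`-th term -/
theorem norm_sub_le_of_geometric {a : ℕ → ℂ} {Z : ℂ} (ha : HasSum a Z) (k0 : ℕ) {c r : ℝ}
    (hc : 0 ≤ c) (hr0 : 0 ≤ r) (hr : r ≤ 1 / 2) (hlow : ∀ k < k0, a k = 0)
    (hhigh : ∀ k, k0 < k → ‖a k‖ ≤ c * r ^ k) : ‖Z - a k0‖ ≤ 2 * c * r ^ (k0 + 1) := by
  have hsum : ∑ i ∈ Finset.range (k0 + 1), a i = a k0 := by
    rw [Finset.sum_range_succ, Finset.sum_eq_zero (fun i hi => hlow i (Finset.mem_range.mp hi)),
      zero_add]
  have htail : HasSum (fun n => a (n + (k0 + 1))) (Z - a k0) := by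
    have := (hasSum_nat_add_iff' (k0 + 1)).mpr ha
    rwa [hsum] at this
  have hr1 : r < 1 := lt_of_le_of_lt hr (by norm_num)
  have hgeo : HasSum (fun n : ℕ => c * r ^ (k0 + 1) * r ^ n) (c * r ^ (k0 + 1) * (1 - r)⁻¹) :=
    (hasSum_geometric_of_lt_one hr0 hr1).mul_left _
  have hbound := htail.norm_le_of_bounded hgeo (fun n => by
    have := hhigh (n + (k0 + 1)) (by omega)
    calc ‖a (n + (k0 + 1))‖ ≤ c * r ^ (n + (k0 + 1)) := this
      _ = c * r ^ (k0 + 1) * r ^ n := by rw [pow_add]; ring)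
  have hinv : (1 - r)⁻¹ ≤ 2 := by
    rw [inv_le_comm₀ (by linarith) (by norm_num)]
    linarith
  calc ‖Z - a k0‖ ≤ c * r ^ (k0 + 1) * (1 - r)⁻¹ := hbound
    _ ≤ c * r ^ (k0 + 1) * 2 := mul_le_mul_of_nonneg_left hinv (by positivity)
    _ = 2 * c * r ^ (k0 + 1) := by ring

/-- **The counting lemma.** -/
theorem exists_bound_not_all_int (d : ℕ) (φ : ℕ → ℂ) (K R : ℝ) (hK : 0 ≤ K) (hR : 0 < R)
    (hφ : ∀ k, ‖φ k‖ ≤ K * R ^ k) (hne : ∃ k, d < k ∧ φ k ≠ 0) (L : ℕ) :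
    ∃ B0 : ℝ, ∀ u : Fin (d + 2) → ℤ, StrictMono u → B0 ≤ (u 0 : ℝ) →
      u (Fin.last (d + 1)) - u 0 ≤ L →
      ∀ Y : Fin (d + 2) → ℂ,
        (∀ j, HasSum (fun k => φ k * (((u j : ℤ) : ℂ) ^ d * (((u j : ℤ) : ℂ)⁻¹) ^ k)) (Y j)) →
        ¬ ∀ j, ∃ n : ℤ, Y j = n := by
  classical
  obtain ⟨hk0, hmin⟩ : (d < Nat.find hne ∧ φ (Nat.find hne) ≠ 0) ∧
      ∀ k < Nat.find hne, ¬ (d < k ∧ φ k ≠ 0) :=
    ⟨Nat.find_spec hne, fun k hk => Nat.find_min hne hk⟩
  generalize Nat.find hne = k0 at hk0 hmin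
  set P : ℝ := ‖φ k0‖ with hP
  have hPpos : 0 < P := norm_pos_iff.mpr hk0.2
  set T1 : ℝ := 2 * K * (4 * R) ^ (k0 + 1) / P with hT1
  set T2 : ℝ := 2 * K * (2 * R) ^ k0 * (((L : ℝ) ^ (d + 1)) ^ (d + 2)) with hT2
  refine ⟨max (max 1 (L : ℝ)) (max (4 * R) (max (T1 + 1) (T2 + 1))), ?_⟩
  intro u hu hB hL Y hY hint
  set B : ℝ := (u 0 : ℝ) with hBdef
  have hB1 : 1 ≤ B := le_trans (le_trans (le_max_left _ _) (le_max_left _ _)) hB
  have hBL : (L : ℝ) ≤ B := le_trans (le_trans (le_max_right _ _) (le_max_left _ _)) hB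
  have hB4 : 4 * R ≤ B := le_trans (le_trans (le_max_left _ _) (le_max_right _ _)) hB
  have hBT1 : T1 < B := lt_of_lt_of_le (lt_add_one _)
    (le_trans (le_trans (le_trans (le_max_left _ _) (le_max_right _ _)) (le_max_right _ _)) hB)
  have hBT2 : T2 < B := lt_of_lt_of_le (lt_add_one _)
    (le_trans (le_trans (le_trans (le_max_right _ _) (le_max_right _ _)) (le_max_right _ _)) hB)
  have hBpos : 0 < B := lt_of_lt_of_le one_pos hB1
  -- real nodes
  set ur : Fin (d + 2) → ℝ := fun j => (u j : ℝ) with hurdef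
  have hur : StrictMono ur := fun i j hij => by
    have := hu hij
    simp only [ur]
    exact_mod_cast this
  have hur0 : B ≤ ur 0 := le_refl _
  have hur0pos : 0 < ur 0 := hBpos
  have hurlast : ur (Fin.last (d + 1)) ≤ 2 * B := by
    have h1 : u (Fin.last (d + 1)) ≤ u 0 + L := by linarith
    have h2 : (u (Fin.last (d + 1)) : ℝ) ≤ (u 0 : ℝ) + L := by exact_mod_cast h1
    simp only [ur]
    linarith
  have hY' : ∀ j, HasSum
      (fun k => φ k * (((ur j : ℝ) : ℂ) ^ d * (((ur j : ℝ) : ℂ)⁻¹) ^ k)) (Y j) := by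
    intro j
    have := hY j
    simpa [ur] using this
  have hZ := hasSum_wt_mul φ ur Y hY'
  set Z : ℂ := ∑ j, ((wt ur j : ℝ) : ℂ) * Y j with hZdef
  set a : ℕ → ℂ := fun k => φ k * ((S ur d k : ℝ) : ℂ) with hadef
  have hnorma : ∀ k, ‖a k‖ = ‖φ k‖ * |S ur d k| := fun k => by
    simp only [a, norm_mul, Complex.norm_real, Real.norm_eq_abs]
  have hlow : ∀ k < k0, a k = 0 := by
    intro k hk
    by_cases hkd : k ≤ d
    · simp only [a]
      rw [S_eq_zero ur hur hur0pos (Nat.lt_succ_self d) hkd]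
      simp
    · have h1 := hmin k hk
      have h2 : φ k = 0 := by
        by_contra hne0
        exact h1 ⟨by omega, hne0⟩
      simp [a, h2]
  set r : ℝ := 2 * R / B with hrdef
  have hr0 : 0 ≤ r := by positivity
  have hr : r ≤ 1 / 2 := by
    rw [hrdef, div_le_iff₀ hBpos]
    linarith
  have hhigh : ∀ k, d < k → ‖a k‖ ≤ K / B * r ^ k := by
    intro k hk
    have hS := abs_S_le (m := d + 1) ur hur hBpos hur0 hk.le
    have e1 : k - d + (d + 1) - 1 = k := by omega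
    have e2 : k - d + (d + 1) = k + 1 := by omega
    rw [e1, e2] at hS
    rw [hnorma]
    calc ‖φ k‖ * |S ur d k| ≤ K * R ^ k * (2 ^ k * (B⁻¹) ^ (k + 1)) :=
          mul_le_mul (hφ k) hS (abs_nonneg _) (by positivity)
      _ = K / B * r ^ k := by
          rw [hrdef, div_pow, mul_pow, pow_succ, inv_pow]
          field_simp
  have hclose := norm_sub_le_of_geometric hZ k0 (c := K / B) (by positivity) hr0 hr hlow
    (fun k hk => hhigh k (by omega))
  have hak0 : P * ((2 * B)⁻¹) ^ (k0 + 1) ≤ ‖a k0‖ := by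
    have hS := le_abs_S (m := d + 1) ur hur hur0pos hurlast hk0.1
    rw [show k0 - d + (d + 1) = k0 + 1 by omega] at hS
    rw [hnorma]
    exact mul_le_mul_of_nonneg_left hS (norm_nonneg _)
  -- `Z ≠ 0`
  have hZne : Z ≠ 0 := by
    intro h0
    rw [h0, zero_sub, norm_neg] at hclose
    have h1 : P * ((2 * B)⁻¹) ^ (k0 + 1) ≤ 2 * (K / B) * r ^ (k0 + 1) := hak0.trans hclose
    have hq : 0 < (2 * B) ^ (k0 + 1) := by positivity
    have hr' : r ^ (k0 + 1) = (4 * R) ^ (k0 + 1) * ((2 * B)⁻¹) ^ (k0 + 1) := by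
      rw [← mul_pow, hrdef]
      congr 1
      field_simp
      ring
    rw [hr', ← mul_assoc] at h1
    have h2 : P ≤ 2 * (K / B) * (4 * R) ^ (k0 + 1) :=
      le_of_mul_le_mul_right h1 (by positivity)
    have h3 : P * B ≤ 2 * K * (4 * R) ^ (k0 + 1) := by
      have := mul_le_mul_of_nonneg_right h2 hBpos.le
      calc P * B ≤ 2 * (K / B) * (4 * R) ^ (k0 + 1) * B := this
        _ = 2 * K * (4 * R) ^ (k0 + 1) := by field_simp
    have h4 : B ≤ T1 := by
      rw [hT1, le_div_iff₀ hPpos]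
      linarith
    linarith
  -- upper bound for `‖Z‖`
  have hZle : ‖Z‖ ≤ 2 * K * (2 * R) ^ k0 / B := by
    have h1 : ‖Z‖ ≤ ‖a k0‖ + ‖Z - a k0‖ := by
      calc ‖Z‖ = ‖a k0 + (Z - a k0)‖ := by rw [add_sub_cancel]
        _ ≤ _ := norm_add_le _ _
    have h2 : ‖a k0‖ ≤ K / B * r ^ k0 := hhigh k0 hk0.1
    have h3 : r ^ (k0 + 1) ≤ r ^ k0 * (1 / 2) := by
      rw [pow_succ]
      exact mul_le_mul_of_nonneg_left hr (pow_nonneg hr0 _)
    have hKB : 0 ≤ K / B := by positivity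
    have h4 : ‖Z‖ ≤ 2 * (K / B) * r ^ k0 := by
      calc ‖Z‖ ≤ K / B * r ^ k0 + 2 * (K / B) * r ^ (k0 + 1) := h1.trans (add_le_add h2 hclose)
        _ ≤ K / B * r ^ k0 + 2 * (K / B) * (r ^ k0 * (1 / 2)) := by
            have := mul_le_mul_of_nonneg_left h3 (by positivity : 0 ≤ 2 * (K / B))
            linarith
        _ = 2 * (K / B) * r ^ k0 := by ring
    have h5 : r ^ k0 ≤ (2 * R) ^ k0 := by
      apply pow_le_pow_left₀ hr0
      rw [hrdef, div_le_iff₀ hBpos]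
      nlinarith
    calc ‖Z‖ ≤ 2 * (K / B) * r ^ k0 := h4
      _ ≤ 2 * (K / B) * (2 * R) ^ k0 := mul_le_mul_of_nonneg_left h5 (by positivity)
      _ = 2 * K * (2 * R) ^ k0 / B := by field_simp
  -- integrality
  choose n hn using hint
  set V : ℤ := ∏ j, den u j with hVdef
  have hVne : V ≠ 0 := Finset.prod_ne_zero_iff.mpr fun j _ => den_ne_zero u hu j
  have hVabs : |V| ≤ ((L : ℤ) ^ (d + 1)) ^ (d + 2) := by
    rw [hVdef, Finset.abs_prod]
    calc ∏ j, |den u j| ≤ ∏ _j : Fin (d + 2), (L : ℤ) ^ (d + 1) :=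
          Finset.prod_le_prod (fun j _ => abs_nonneg _) fun j _ => abs_den_le u hu L hL j
      _ = ((L : ℤ) ^ (d + 1)) ^ (d + 2) := by simp
  have hVZ : (V : ℂ) * Z =
      ((∑ j, (∏ i ∈ Finset.univ.erase j, den u i) * n j : ℤ) : ℂ) := by
    rw [hZdef, Finset.mul_sum]
    push_cast
    refine Finset.sum_congr rfl fun j _ => ?_
    have h1 : wt ur j = ((den u j : ℤ) : ℝ)⁻¹ := wt_cast u j
    have h2 : V = den u j * ∏ i ∈ Finset.univ.erase j, den u i :=
      (Finset.mul_prod_erase Finset.univ (den u) (Finset.mem_univ j)).symm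
    have h3 : ((den u j : ℤ) : ℂ) ≠ 0 := by exact_mod_cast den_ne_zero u hu j
    rw [h1, hn j, h2]
    push_cast
    field_simp
  set N : ℤ := ∑ j, (∏ i ∈ Finset.univ.erase j, den u i) * n j with hNdef
  have hNne : N ≠ 0 := by
    intro h0
    rw [h0, Int.cast_zero] at hVZ
    rcases mul_eq_zero.mp hVZ with h | h
    · exact hVne (by exact_mod_cast h)
    · exact hZne h
  have hN1 : (1 : ℝ) ≤ ‖((N : ℤ) : ℂ)‖ := by
    rw [Complex.norm_intCast]
    have : (1 : ℤ) ≤ |N| := Int.one_le_abs hNne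
    exact_mod_cast this
  have hlt : ‖(V : ℂ) * Z‖ < 1 := by
    rw [norm_mul, Complex.norm_intCast]
    have hV' : |(V : ℝ)| ≤ ((L : ℝ) ^ (d + 1)) ^ (d + 2) := by exact_mod_cast hVabs
    calc |(V : ℝ)| * ‖Z‖ ≤ ((L : ℝ) ^ (d + 1)) ^ (d + 2) * (2 * K * (2 * R) ^ k0 / B) :=
          mul_le_mul hV' hZle (norm_nonneg _) (by positivity)
      _ = T2 / B := by rw [hT2]; ring
      _ < 1 := by rw [div_lt_one hBpos]; exact hBT2
  rw [hVZ] at hlt
  linarith

end Fermat.Agent.SW.HIT.Count
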