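import Mathlib
import Fermat.Agent.SW.HIT.Count

/-!
# MOONSHOT S52, block K2 (Hilbert irreducibility): the pigeonhole step

`exists_good_of_expansion` : if every "bad" integer `u ≥ U1` is witnessed by one of finitely many
branches `i` whose function `Y_i(u) = ∑ g i k * u ^ (d - k)` takes an INTEGER value at `u`, the
coefficients being geometrically bounded, and no branch with vanishing tail is integral at `d + 2`
integers, then every arithmetic progression `u ≡ 1 (mod M)` contains arbitrarily large integers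
which are not bad.

Proof: a window of `n (d + 1) + 1` consecutive members of the progression; if all are bad, one
branch is integral at `d + 2` of them (pigeonhole), inside a window of fixed length `n (d + 1) M`:
excluded by `Count.exists_bound_not_all_int` (nonzero tail) resp. by the hypothesis (zero tail).
-/

set_option autoImplicit false

open Finset

namespace Fermat.Agent.SW.HIT.Main

open Fermat.Agent.SW.HIT.Count

theorem exists_good_of_expansion {n d : ℕ} (g : Fin n → ℕ → ℂ) (A R : ℝ) (hA : 0 ≤ A)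
    (hR : 0 < R) (hg : ∀ i k, ‖g i k‖ ≤ A * R ^ k) (bad : ℤ → Prop) (U1 : ℤ)
    (h1 : ∀ u : ℤ, U1 ≤ u → bad u → ∃ i : Fin n, ∃ z : ℤ,
      HasSum (fun k => g i k * (((u : ℤ) : ℂ) ^ d * (((u : ℤ) : ℂ)⁻¹) ^ k)) (z : ℂ))
    (h2 : ∀ i, (∀ k, d < k → g i k = 0) → ∀ v : Fin (d + 2) → ℤ, StrictMono v → U1 ≤ v 0 →
      ¬ ∀ j, ∃ z : ℤ,
        HasSum (fun k => g i k * (((v j : ℤ) : ℂ) ^ d * (((v j : ℤ) : ℂ)⁻¹) ^ k)) (z : ℂ))
    (M : ℕ) (hM : 0 < M) (U0 : ℤ) : ∃ u : ℤ, U0 ≤ u ∧ (M : ℤ) ∣ u - 1 ∧ ¬ bad u := by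
  classical
  set L : ℕ := n * (d + 1) * M with hL
  -- the thresholds of the branches with a nonzero tail
  have hB : ∀ i : Fin n, ∃ B0 : ℝ, (∃ k, d < k ∧ g i k ≠ 0) →
      ∀ u : Fin (d + 2) → ℤ, StrictMono u → B0 ≤ (u 0 : ℝ) →
        u (Fin.last (d + 1)) - u 0 ≤ L →
        ∀ Y : Fin (d + 2) → ℂ,
          (∀ j, HasSum (fun k => g i k * (((u j : ℤ) : ℂ) ^ d * (((u j : ℤ) : ℂ)⁻¹) ^ k)) (Y j)) →
          ¬ ∀ j, ∃ z : ℤ, Y j = z := by
    intro i
    by_cases hne : ∃ k, d < k ∧ g i k ≠ 0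
    · obtain ⟨B0, hB0⟩ := exists_bound_not_all_int d (g i) A R hA hR (hg i) hne L
      exact ⟨B0, fun _ => hB0⟩
    · exact ⟨0, fun h => absurd h hne⟩
  choose B0 hB0 using hB
  set Bs : ℝ := ∑ i, |B0 i| with hBs
  have hBs_le : ∀ i, B0 i ≤ Bs := fun i =>
    (le_abs_self _).trans (Finset.single_le_sum (f := fun i => |B0 i|)
      (fun j _ => abs_nonneg _) (Finset.mem_univ i))
  -- the start of the window
  obtain ⟨T, hT⟩ : ∃ T : ℤ, U0 ≤ T ∧ U1 ≤ T ∧ Bs ≤ (T : ℝ) ∧ 0 ≤ T := by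
    refine ⟨max (max U0 U1) (max ⌈Bs⌉ 0), le_trans (le_max_left _ _) (le_max_left _ _),
      le_trans (le_max_right _ _) (le_max_left _ _), ?_, le_trans (le_max_right _ _)
        (le_max_right _ _)⟩
    have h1 : Bs ≤ (⌈Bs⌉ : ℝ) := Int.le_ceil Bs
    have h2 : (⌈Bs⌉ : ℤ) ≤ max (max U0 U1) (max ⌈Bs⌉ 0) :=
      le_trans (le_max_left _ _) (le_max_right _ _)
    have h3 : ((⌈Bs⌉ : ℤ) : ℝ) ≤ ((max (max U0 U1) (max ⌈Bs⌉ 0) : ℤ) : ℝ) := by exact_mod_cast h2
    exact h1.trans h3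
  obtain ⟨hT0, hT1, hTB, hTpos⟩ := hT
  set us : ℤ := 1 + (M : ℤ) * T with hus
  have hMpos : (0 : ℤ) < M := by exact_mod_cast hM
  have husT : T ≤ us := by
    have : T ≤ (M : ℤ) * T := le_mul_of_one_le_left hTpos (by exact_mod_cast hM)
    linarith
  -- the window
  set w : Fin (n * (d + 1) + 1) → ℤ := fun t => us + (t : ℕ) * (M : ℤ) with hw
  have hwge : ∀ t, us ≤ w t := fun t => by
    have : (0 : ℤ) ≤ ((t : ℕ) : ℤ) * (M : ℤ) := by positivity
    simp only [w]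
    linarith
  have hwdvd : ∀ t, (M : ℤ) ∣ w t - 1 := fun t => by
    simp only [w, hus]
    exact ⟨T + (t : ℕ), by ring⟩
  by_contra hcon
  push Not at hcon
  have hbad : ∀ t, bad (w t) := fun t =>
    hcon (w t) (hT0.trans (husT.trans (hwge t))) (hwdvd t)
  have hwit : ∀ t, ∃ i : Fin n, ∃ z : ℤ,
      HasSum (fun k => g i k * (((w t : ℤ) : ℂ) ^ d * (((w t : ℤ) : ℂ)⁻¹) ^ k)) (z : ℂ) :=
    fun t => h1 (w t) (hT1.trans (husT.trans (hwge t))) (hbad t)
  choose ι z hz using hwit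
  -- pigeonhole
  have hcard : Fintype.card (Fin n) * (d + 1) < Fintype.card (Fin (n * (d + 1) + 1)) := by
    simp
  obtain ⟨i, hi⟩ := Fintype.exists_lt_card_fiber_of_mul_lt_card ι hcard
  obtain ⟨s, hs, hscard⟩ := Finset.exists_subset_card_eq (Nat.succ_le_of_lt hi)
  set emb := s.orderEmbOfFin hscard with hemb
  have hmem : ∀ j, ι (emb j) = i := fun j => by
    have := hs (Finset.orderEmbOfFin_mem s hscard j)
    simpa using this
  set v : Fin (d + 2) → ℤ := fun j => w (emb j) with hv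
  have hvmono : StrictMono v := by
    intro a b hab
    have h1 : emb a < emb b := emb.strictMono hab
    have h2 : ((emb a : Fin (n * (d + 1) + 1)) : ℕ) < ((emb b : Fin (n * (d + 1) + 1)) : ℕ) := h1
    have h3 : (((emb a : Fin (n * (d + 1) + 1)) : ℕ) : ℤ) <
        (((emb b : Fin (n * (d + 1) + 1)) : ℕ) : ℤ) := by exact_mod_cast h2
    simp only [v, w]
    have := mul_lt_mul_of_pos_right h3 hMpos
    linarith
  have hv0 : us ≤ v 0 := hwge _
  have hvL : v (Fin.last (d + 1)) - v 0 ≤ L := by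
    simp only [v, w]
    have h1 : (((emb (Fin.last (d + 1)) : Fin (n * (d + 1) + 1)) : ℕ) : ℤ) ≤ (n * (d + 1) : ℕ) := by
      have := (emb (Fin.last (d + 1))).2
      exact_mod_cast Nat.lt_succ_iff.mp this
    have h2 : (0 : ℤ) ≤ (((emb 0 : Fin (n * (d + 1) + 1)) : ℕ) : ℤ) := by positivity
    have h3 : (((emb (Fin.last (d + 1)) : Fin (n * (d + 1) + 1)) : ℕ) : ℤ) * (M : ℤ) ≤
        ((n * (d + 1) : ℕ) : ℤ) * (M : ℤ) := mul_le_mul_of_nonneg_right h1 hMpos.le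
    have h4 : (0 : ℤ) ≤ (((emb 0 : Fin (n * (d + 1) + 1)) : ℕ) : ℤ) * (M : ℤ) :=
      mul_nonneg h2 hMpos.le
    have h5 : ((L : ℕ) : ℤ) = ((n * (d + 1) : ℕ) : ℤ) * (M : ℤ) := by
      rw [hL]; push_cast; ring
    rw [h5]
    linarith
  have hsum : ∀ j, HasSum
      (fun k => g i k * (((v j : ℤ) : ℂ) ^ d * (((v j : ℤ) : ℂ)⁻¹) ^ k)) ((z (emb j) : ℤ) : ℂ) := by
    intro j
    have := hz (emb j)
    rw [hmem j] at this
    exact this
  by_cases hne : ∃ k, d < k ∧ g i k ≠ 0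
  · refine hB0 i hne v hvmono ?_ hvL (fun j => ((z (emb j) : ℤ) : ℂ)) hsum
      (fun j => ⟨z (emb j), rfl⟩)
    have h1 : (T : ℝ) ≤ (v 0 : ℝ) := by exact_mod_cast husT.trans hv0
    exact (hBs_le i).trans (hTB.trans h1)
  · push Not at hne
    refine h2 i (fun k hk => ?_) v hvmono (hT1.trans (husT.trans hv0))
      (fun j => ⟨z (emb j), hsum j⟩)
    by_contra h0
    exact h0 (hne k hk)

end Fermat.Agent.SW.HIT.Main
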