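/-
Hilbert irreducibility (block K2 of SW): the block is closed.

`export_holds : Export` from `Expand.exists_expansion` (helper21) and
`Main.exists_good_of_expansion` (helper25); `hitOut : Contracts.HITOut` through the adapter.
-/
import Fermat.Agent.SW.HIT.Interface
import Fermat.Agent.SW.HIT.Main
import Fermat.Agent.SW.HIT.Adapter

namespace Fermat.Agent.SW.HIT.Done

open Polynomial

/-- The general export: Hilbert irreducibility (rational roots) at an unramified point. -/
theorem export_holds : Export := by
  intro f s₀ _ hlc hsep hroot M hM U0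
  have hMq : ((M : ℕ) : ℚ) ≠ 0 := by exact_mod_cast hM.ne'
  obtain ⟨d, g, A, R, U1, hA, hR, hg, h1, h2⟩ :=
    Expand.exists_expansion f s₀ hlc hsep hroot (M : ℚ) hMq
  obtain ⟨u, hu, hdvd, hbad⟩ := Main.exists_good_of_expansion g A R hA hR hg
    (fun u : ℤ => ∃ x : ℚ, (f.map (evalRingHom (s₀ + (M : ℚ) / (u : ℚ)))).eval x = 0)
    U1 h1 h2 M hM U0
  exact ⟨u, hu, hdvd, fun x hx => hbad ⟨x, hx⟩⟩

/-- **Block K2**: the literal contract `HITOut`. -/
theorem hitOut : Fermat.Agent.SW.Contracts.HITOut :=
  Adapter.hitOut_of_export export_holds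

end Fermat.Agent.SW.HIT.Done
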