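import Fermat.Agent.SW.HIT.BranchIFT

/-!
# All roots near an unramified point are analytic branches

If `g(s₀, ·)` has degree `n = deg_x g` and is separable, there are `n` functions `ψ i`, analytic at
`s₀`, such that for `s` near `s₀` every root of `g(s, ·)` is one of the `ψ i s`.
-/

namespace Fermat.Agent.SW.HIT.BranchAll

open Polynomial Filter Topology
open scoped Polynomial.Bivariate

noncomputable section

open Fermat.Agent.SW.HIT.BranchIFT

theorem natDegree_spec_le (g : ℂ[X][Y]) (s : ℂ) :
    (g.map (evalRingHom s)).natDegree ≤ g.natDegree := natDegree_map_le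

theorem spec_ne_zero (g : ℂ[X][Y]) (s : ℂ) (h : g.leadingCoeff.eval s ≠ 0) :
    g.map (evalRingHom s) ≠ 0 := by
  intro h0
  have : (g.map (evalRingHom s)).coeff g.natDegree = 0 := by rw [h0]; simp
  rw [coeff_map] at this
  exact h this

theorem natDegree_spec (g : ℂ[X][Y]) (s : ℂ) (h : g.leadingCoeff.eval s ≠ 0) :
    (g.map (evalRingHom s)).natDegree = g.natDegree :=
  natDegree_map_of_leadingCoeff_ne_zero _ h

/-- A finite set of pairwise distinct roots of `g(s, ·)` of cardinality `deg_x g` exhausts the roots. -/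
theorem mem_of_card_eq (g : ℂ[X][Y]) (s : ℂ) (h : g.leadingCoeff.eval s ≠ 0)
    (T : Finset ℂ) (hT : ∀ y ∈ T, g.evalEval s y = 0) (hcard : T.card = g.natDegree)
    (x : ℂ) (hx : g.evalEval s x = 0) : x ∈ T := by
  by_contra hxT
  have hne := spec_ne_zero g s h
  have hsub : insert x T ⊆ (g.map (evalRingHom s)).roots.toFinset := by
    intro y hy
    rw [Multiset.mem_toFinset, mem_roots hne, IsRoot.def, map_evalRingHom_eval]
    rcases Finset.mem_insert.mp hy with rfl | hy
    · exact hx
    · exact hT y hy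
  have h1 := Finset.card_le_card hsub
  rw [Finset.card_insert_of_notMem hxT, hcard] at h1
  have h2 : (g.map (evalRingHom s)).roots.toFinset.card ≤ g.natDegree :=
    (Multiset.toFinset_card_le _).trans ((card_roots' _).trans (natDegree_spec_le g s))
  omega

/-- **All roots are branches.** -/
theorem exists_branches (g : ℂ[X][Y]) (s₀ : ℂ) (hlead : g.leadingCoeff.eval s₀ ≠ 0)
    (hsep : (g.map (evalRingHom s₀)).Separable) :
    ∃ ψ : Fin g.natDegree → ℂ → ℂ, (∀ i, AnalyticAt ℂ (ψ i) s₀) ∧
      (∀ᶠ s in 𝓝 s₀, ∀ i, g.evalEval s (ψ i s) = 0) ∧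
      ∀ᶠ s in 𝓝 s₀, ∀ x : ℂ, g.evalEval s x = 0 → ∃ i, x = ψ i s := by
  classical
  set p₀ := g.map (evalRingHom s₀) with hp₀
  have hdeg : p₀.natDegree = g.natDegree := natDegree_spec g s₀ hlead
  have hne : p₀ ≠ 0 := spec_ne_zero g s₀ hlead
  have hnodup : p₀.roots.Nodup := nodup_roots hsep
  have hcard : p₀.roots.toFinset.card = g.natDegree := by
    rw [Multiset.toFinset_card_of_nodup hnodup, ← hdeg]
    exact (IsAlgClosed.splits p₀).natDegree_eq_card_roots.symm
  -- enumerate the roots
  obtain ⟨e⟩ : Nonempty (Fin g.natDegree ≃ p₀.roots.toFinset) := by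
    refine ⟨(Fintype.equivFinOfCardEq ?_).symm⟩
    rw [Fintype.card_coe, hcard]
  have hroot : ∀ i, g.evalEval s₀ (e i : ℂ) = 0 := by
    intro i
    have := (e i).2
    rw [Multiset.mem_toFinset, mem_roots hne, IsRoot.def, map_evalRingHom_eval] at this
    exact this
  have hder : ∀ i, (derivative p₀).eval (e i : ℂ) ≠ 0 := by
    intro i
    have h1 : p₀.eval (e i : ℂ) = 0 := by
      have := hroot i
      rwa [← map_evalRingHom_eval] at this
    have h2 := hsep.eval₂_derivative_ne_zero (RingHom.id ℂ) (x := (e i : ℂ))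
      (by rw [eval₂_id]; exact h1)
    rwa [eval₂_id] at h2
  choose ψ hψ0 hψa hψe using fun i => exists_branch g s₀ (e i : ℂ) (hroot i) (hder i)
  have ev1 : ∀ᶠ s in 𝓝 s₀, ∀ i, g.evalEval s (ψ i s) = 0 := eventually_all.2 hψe
  refine ⟨ψ, hψa, ev1, ?_⟩
  -- eventually: all branches are roots, pairwise distinct, leading coefficient nonzero
  have ev2 : ∀ᶠ s in 𝓝 s₀, ∀ i j, i ≠ j → ψ i s ≠ ψ j s := by
    refine eventually_all.2 fun i => eventually_all.2 fun j => ?_
    by_cases hij : i = j
    · exact Eventually.of_forall fun _ h => (h hij).elim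
    · have hc : ContinuousAt (fun s => ψ i s - ψ j s) s₀ :=
        (hψa i).continuousAt.sub (hψa j).continuousAt
      have hv : ψ i s₀ - ψ j s₀ ≠ 0 := by
        rw [hψ0, hψ0, sub_ne_zero]
        intro h
        exact hij (e.injective (Subtype.ext h))
      filter_upwards [hc.eventually_ne hv] with s hs _
      exact sub_ne_zero.1 hs
  have ev3 : ∀ᶠ s in 𝓝 s₀, g.leadingCoeff.eval s ≠ 0 :=
    (g.leadingCoeff.continuous.continuousAt).eventually_ne hlead
  filter_upwards [ev1, ev2, ev3] with s h1 h2 h3 x hx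
  have hinj : Function.Injective fun i => ψ i s := by
    intro i j hij
    by_contra hne'
    exact h2 i j hne' hij
  have := mem_of_card_eq g s h3 (Finset.univ.image fun i => ψ i s)
    (by
      intro y hy
      obtain ⟨i, -, rfl⟩ := Finset.mem_image.1 hy
      exact h1 i)
    (by rw [Finset.card_image_of_injective _ hinj, Finset.card_univ, Fintype.card_fin]) x hx
  obtain ⟨i, -, hi⟩ := Finset.mem_image.1 this
  exact ⟨i, hi.symm⟩

end

end Fermat.Agent.SW.HIT.BranchAll
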