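import Mathlib

/-!
# Analytic branches of the roots of a polynomial family (complex IFT)

`g : ℂ[X][Y]` is a two-variable polynomial, inner variable `s` (= `X`), outer variable `x` (= `Y`).
At a point `(s₀, x₀)` with `g(s₀, x₀) = 0` and `∂g/∂x (s₀, x₀) ≠ 0` there is a function `ψ`,
analytic at `s₀`, with `ψ s₀ = x₀` and `g(s, ψ s) = 0` for `s` near `s₀`.
-/

namespace Fermat.Agent.SW.HIT.BranchIFT

open Polynomial Filter Topology
open scoped Polynomial.Bivariate ContDiff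

noncomputable section

/-- The two-variable polynomial function `(s, x) ↦ g(s, x)`. -/
def F2 (g : ℂ[X][Y]) : ℂ × ℂ → ℂ := fun p => g.evalEval p.1 p.2

theorem F2_apply (g : ℂ[X][Y]) (s x : ℂ) : F2 g (s, x) = g.evalEval s x := rfl

theorem F2_eq_sum (g : ℂ[X][Y]) (p : ℂ × ℂ) :
    F2 g p = ∑ i ∈ Finset.range (g.natDegree + 1), (g.coeff i).eval p.1 * p.2 ^ i := by
  unfold F2
  rw [evalEval, eval_eq_sum_range (p := g) (C p.2), eval_finsetSum]
  refine Finset.sum_congr rfl fun i _ => ?_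
  simp [eval_mul, eval_pow, eval_C]

theorem contDiff_F2 (g : ℂ[X][Y]) : ContDiff ℂ ω (F2 g) := by
  have h : F2 g = fun p : ℂ × ℂ =>
      ∑ i ∈ Finset.range (g.natDegree + 1), (g.coeff i).eval p.1 * p.2 ^ i := by
    funext p; exact F2_eq_sum g p
  rw [h]
  refine ContDiff.sum fun i _ => ?_
  refine ContDiff.mul ?_ (contDiff_snd.pow i)
  have := (Polynomial.contDiff_aeval (𝕜 := ℂ) (g.coeff i) ω).comp (contDiff_fst (E := ℂ) (F := ℂ))
  simpa [Function.comp_def] using this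

/-- The partial derivative of `F2 g` in the outer variable. -/
theorem hasDerivAt_F2_snd (g : ℂ[X][Y]) (s x : ℂ) :
    HasDerivAt (fun y => F2 g (s, y)) ((derivative (g.map (evalRingHom s))).eval x) x := by
  have h : (fun y => F2 g (s, y)) = fun y => (g.map (evalRingHom s)).eval y := by
    funext y; simp [F2, map_evalRingHom_eval]
  rw [h]; exact (g.map (evalRingHom s)).hasDerivAt x

theorem fderiv_comp_inr (g : ℂ[X][Y]) (s x : ℂ) :
    (fderiv ℂ (F2 g) (s, x) ∘L ContinuousLinearMap.inr ℂ ℂ ℂ) =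
      ContinuousLinearMap.smulRight (1 : ℂ →L[ℂ] ℂ)
        ((derivative (g.map (evalRingHom s))).eval x) := by
  have hF : HasFDerivAt (F2 g) (fderiv ℂ (F2 g) (s, x)) (s, x) :=
    ((contDiff_F2 g).differentiable (by simp)).differentiableAt.hasFDerivAt
  have h1 : HasFDerivAt (fun y : ℂ => F2 g (s, y))
      (fderiv ℂ (F2 g) (s, x) ∘L ContinuousLinearMap.inr ℂ ℂ ℂ) x :=
    hF.comp x (hasFDerivAt_prodMk_right s x)
  exact h1.unique (hasDerivAt_F2_snd g s x).hasFDerivAt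

theorem isInvertible_fderiv_comp_inr (g : ℂ[X][Y]) (s x : ℂ)
    (h : (derivative (g.map (evalRingHom s))).eval x ≠ 0) :
    (fderiv ℂ (F2 g) (s, x) ∘L ContinuousLinearMap.inr ℂ ℂ ℂ).IsInvertible := by
  rw [fderiv_comp_inr]
  refine ⟨ContinuousLinearEquiv.unitsEquivAut ℂ (Units.mk0 _ h), ?_⟩
  ext
  simp

/-- **Analytic branch through a simple root.**  -/
theorem exists_branch (g : ℂ[X][Y]) (s₀ x₀ : ℂ) (h0 : g.evalEval s₀ x₀ = 0)
    (h : (derivative (g.map (evalRingHom s₀))).eval x₀ ≠ 0) :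
    ∃ ψ : ℂ → ℂ, ψ s₀ = x₀ ∧ AnalyticAt ℂ ψ s₀ ∧ ∀ᶠ s in 𝓝 s₀, g.evalEval s (ψ s) = 0 := by
  have cdf : ContDiffAt ℂ ω (F2 g) (s₀, x₀) := (contDiff_F2 g).contDiffAt
  have pn : (ω : WithTop ℕ∞) ≠ 0 := by simp
  have inv := isInvertible_fderiv_comp_inr g s₀ x₀ h
  refine ⟨cdf.implicitFunction pn inv, ?_, ?_, ?_⟩
  · exact cdf.implicitFunction_apply_self pn inv
  · exact (cdf.contDiffAt_implicitFunction pn inv).analyticAt
  · have := cdf.eventually_apply_implicitFunction pn inv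
    simp only [F2_apply] at this
    rw [h0] at this
    exact this

end

end Fermat.Agent.SW.HIT.BranchIFT
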