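import Fermat.Agent.SW.HIT.RatRoot

/-!
# The substitution `s = s₀ + M / u`

`homog s₀ M d q` is the polynomial `u ↦ u ^ d * q (s₀ + M / u)` (for `deg q ≤ d`).
For a two-variable polynomial `f ∈ ℚ[s][x]` all of whose coefficients have `s`-degree `≤ d`, and a
common denominator `c`, the numbers `c * u ^ d * f_i (s₀ + M / u)` are integers for integer `u`,
hence a rational root `x` of `f (s₀ + M / u, ·)` has `c * u ^ d * lc (s₀ + M / u) * x ∈ ℤ`.
-/

namespace Fermat.Agent.SW.HIT.Homog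

open Polynomial
open scoped Polynomial.Bivariate

noncomputable section

/-- `u ↦ u ^ d * q (s₀ + M / u)` as a polynomial. -/
def homog (s₀ M : ℚ) (d : ℕ) (q : ℚ[X]) : ℚ[X] :=
  ∑ j ∈ Finset.range (d + 1), C (q.coeff j) * (C s₀ * X + C M) ^ j * X ^ (d - j)

theorem homog_eval (s₀ M : ℚ) (d : ℕ) (q : ℚ[X]) (hq : q.natDegree ≤ d) (u : ℚ) (hu : u ≠ 0) :
    (homog s₀ M d q).eval u = u ^ d * q.eval (s₀ + M / u) := by
  unfold homog
  rw [eval_finsetSum, eval_eq_sum_range' (Nat.lt_succ_of_le hq), Finset.mul_sum]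
  refine Finset.sum_congr rfl fun j hj => ?_
  have hj' : j ≤ d := Nat.lt_succ_iff.1 (Finset.mem_range.1 hj)
  simp only [eval_mul, eval_C, eval_pow, eval_add, eval_X]
  have e : u ^ d = u ^ j * u ^ (d - j) := by rw [← pow_add, Nat.add_sub_cancel' hj']
  rw [e]
  have : s₀ + M / u = (s₀ * u + M) / u := by field_simp
  rw [this, div_pow]
  field_simp

/-- The maximal `s`-degree of the coefficients of `f`. -/
def sDeg (f : ℚ[X][Y]) : ℕ := (Finset.range (f.natDegree + 1)).sup fun i => (f.coeff i).natDegree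

theorem natDegree_coeff_le_sDeg (f : ℚ[X][Y]) (i : ℕ) : (f.coeff i).natDegree ≤ sDeg f := by
  by_cases hi : i ∈ Finset.range (f.natDegree + 1)
  · exact Finset.le_sup (f := fun i => (f.coeff i).natDegree) hi
  · have : f.coeff i = 0 := by
      apply coeff_eq_zero_of_natDegree_lt
      have := Finset.mem_range.not.1 hi
      omega
    rw [this]; simp

/-- A common denominator: `c * u ^ d * f_i (s₀ + M / u) ∈ ℤ` for all integers `u ≠ 0` and all `i`. -/
theorem exists_den (f : ℚ[X][Y]) (s₀ M : ℚ) :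
    ∃ c : ℕ, 0 < c ∧ ∀ i : ℕ, ∀ u : ℤ, u ≠ 0 →
      ∃ z : ℤ, (c : ℚ) * (u : ℚ) ^ sDeg f * (f.coeff i).eval (s₀ + M / u) = z := by
  obtain ⟨c, hc0, hc⟩ := RatRoot.exists_den_eval_family (Finset.range (f.natDegree + 1))
    (fun i => homog s₀ M (sDeg f) (f.coeff i))
  refine ⟨c, hc0, fun i u hu => ?_⟩
  by_cases hi : i ∈ Finset.range (f.natDegree + 1)
  · obtain ⟨z, hz⟩ := hc i hi u
    refine ⟨z, ?_⟩
    rw [← hz, homog_eval s₀ M (sDeg f) (f.coeff i) (natDegree_coeff_le_sDeg f i) u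
      (by exact_mod_cast hu)]
    ring
  · have : f.coeff i = 0 := by
      apply coeff_eq_zero_of_natDegree_lt
      have := Finset.mem_range.not.1 hi
      omega
    exact ⟨0, by rw [this]; simp⟩

/-- **Integrality.** With `c` as in `exists_den`: a rational root `x` of `f (s₁, ·)`,
`s₁ = s₀ + M / u`, has `c * u ^ d * lc (s₁) * x ∈ ℤ`. -/
theorem root_isInt (f : ℚ[X][Y]) (s₀ M : ℚ) (c : ℕ)
    (hc : ∀ i : ℕ, ∀ u : ℤ, u ≠ 0 →
      ∃ z : ℤ, (c : ℚ) * (u : ℚ) ^ sDeg f * (f.coeff i).eval (s₀ + M / u) = z)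
    (u : ℤ) (hu : u ≠ 0) (x : ℚ) (hx : (f.map (evalRingHom (s₀ + M / u))).eval x = 0) :
    ∃ w : ℤ, (c : ℚ) * (u : ℚ) ^ sDeg f * f.leadingCoeff.eval (s₀ + M / u) * x = w := by
  choose z hz using fun i => hc i u hu
  have hsum : ∑ i ∈ Finset.range (f.natDegree + 1), (z i : ℚ) * x ^ i = 0 := by
    have h1 : (f.map (evalRingHom (s₀ + M / u))).eval x =
        ∑ i ∈ Finset.range (f.natDegree + 1), (f.coeff i).eval (s₀ + M / u) * x ^ i := by
      rw [eval_eq_sum_range' (Nat.lt_succ_of_le natDegree_map_le)]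
      refine Finset.sum_congr rfl fun i _ => ?_
      rw [coeff_map, coe_evalRingHom]
    have h2 : ∑ i ∈ Finset.range (f.natDegree + 1), (z i : ℚ) * x ^ i =
        (c : ℚ) * (u : ℚ) ^ sDeg f * (f.map (evalRingHom (s₀ + M / u))).eval x := by
      rw [h1, Finset.mul_sum]
      refine Finset.sum_congr rfl fun i _ => ?_
      rw [← hz i]; ring
    rw [h2, hx, mul_zero]
  obtain ⟨w, hw⟩ := RatRoot.lead_mul_root_isInt z f.natDegree x hsum
  refine ⟨w, ?_⟩
  rw [← hw, ← hz f.natDegree]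
  rfl

end

end Fermat.Agent.SW.HIT.Homog
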