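import Mathlib

/-!
# Power series of an analytic function with explicit coefficient bounds (one complex variable)

Everything is phrased with the filter `𝓝[>] 0` on the radius so that finitely many functions can be
handled simultaneously (`Filter.eventually_all`).
-/

namespace Fermat.Agent.SW.HIT.SeriesAt

open Filter Topology
open scoped ENNReal NNReal

theorem eventually_radius {P : ℂ → Prop} {a : ℂ} (h : ∀ᶠ s in 𝓝 a, P s) :
    ∀ᶠ ρ in 𝓝[>] (0 : ℝ), ∀ t : ℂ, ‖t‖ < ρ → P (a + t) := by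
  obtain ⟨ε, hε, hP⟩ := Metric.eventually_nhds_iff.1 h
  filter_upwards [Ioo_mem_nhdsGT hε] with ρ hρ t ht
  apply hP
  rw [dist_eq_norm, add_sub_cancel_left]
  exact ht.trans hρ.2

/-- An analytic function is the sum of a power series with geometric coefficient bounds on all
sufficiently small discs. -/
theorem eventually_series {h : ℂ → ℂ} {a : ℂ} (ha : AnalyticAt ℂ h a) :
    ∃ (η : ℕ → ℂ) (A : ℝ), 0 ≤ A ∧ ∀ᶠ ρ in 𝓝[>] (0 : ℝ),
      (∀ k, ‖η k‖ * ρ ^ k ≤ A) ∧
        ∀ t : ℂ, ‖t‖ < ρ → HasSum (fun k => η k * t ^ k) (h (a + t)) := by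
  obtain ⟨p, r, hp⟩ := ha
  obtain ⟨ρ₀, hρ₀pos, hρ₀r⟩ := ENNReal.lt_iff_exists_nnreal_btwn.1 hp.r_pos
  obtain ⟨C, hC, hbound⟩ := p.norm_mul_pow_le_of_lt_radius (hρ₀r.trans_le hp.r_le)
  have hρ₀ : (0 : ℝ) < ρ₀ := by exact_mod_cast hρ₀pos
  refine ⟨p.coeff, C, hC.le, ?_⟩
  filter_upwards [Ioo_mem_nhdsGT hρ₀] with ρ hρ
  refine ⟨fun k => ?_, fun t ht => ?_⟩
  · have h1 := hbound k
    rw [FormalMultilinearSeries.norm_apply_eq_norm_coef] at h1
    refine le_trans ?_ h1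
    exact mul_le_mul_of_nonneg_left (pow_le_pow_left₀ hρ.1.le hρ.2.le k) (norm_nonneg _)
  · have hmem : t ∈ Metric.eball (0 : ℂ) r := by
      rw [Metric.mem_eball, edist_zero_right]
      refine lt_trans ?_ hρ₀r
      rw [← ofReal_norm, ← ENNReal.ofReal_coe_nnreal]
      exact ENNReal.ofReal_lt_ofReal_iff_of_nonneg (norm_nonneg _) |>.2 (ht.trans hρ.2)
    have := hp.hasSum hmem
    simp only [FormalMultilinearSeries.apply_eq_pow_smul_coeff, smul_eq_mul] at this
    simpa [mul_comm] using this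

end Fermat.Agent.SW.HIT.SeriesAt
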