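import Fermat.Agent.SW.HIT.BranchAll
import Fermat.Agent.SW.HIT.Homog
import Fermat.Agent.SW.HIT.SeriesAt

/-!
# The analytic data of the branches (`Pack`) and the integrality of branch values

For `f ∈ ℚ[s][x]` with `lc(s₀) ≠ 0` and `f(s₀, ·)` separable we package: the branches `ψ i`
(all the roots of `f(s, ·)` for `s` in a disc of radius `ρ` around `s₀`), the power series
`η i` of `h_i(s) = c · lc(s) · ψ_i(s)` at `s₀` with geometric bounds, and the integrality statement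
`c · u^d · lc(s₁) · x ∈ ℤ` for a rational root `x` at `s₁ = s₀ + M/u`.
-/

namespace Fermat.Agent.SW.HIT.Expand

open Polynomial Filter Topology
open scoped Polynomial.Bivariate

noncomputable section

/-- Base change of `f` to `ℂ`. -/
def fC (f : ℚ[X][Y]) : ℂ[X][Y] := f.map (mapRingHom (algebraMap ℚ ℂ))

theorem mapRingHom_injective : Function.Injective (mapRingHom (algebraMap ℚ ℂ)) := by
  rw [coe_mapRingHom]; exact map_injective _ (algebraMap ℚ ℂ).injective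

theorem natDegree_fC (f : ℚ[X][Y]) : (fC f).natDegree = f.natDegree :=
  natDegree_map_eq_of_injective mapRingHom_injective f

/-- The leading coefficient (in `x`) of `f`, over `ℂ`. -/
def lcC (f : ℚ[X][Y]) : ℂ[X] := f.leadingCoeff.map (algebraMap ℚ ℂ)

theorem leadingCoeff_fC (f : ℚ[X][Y]) : (fC f).leadingCoeff = lcC f := by
  unfold fC lcC
  rw [leadingCoeff_map_of_injective mapRingHom_injective, coe_mapRingHom]

theorem lcC_eval (f : ℚ[X][Y]) (s : ℚ) :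
    (lcC f).eval (algebraMap ℚ ℂ s) = algebraMap ℚ ℂ (f.leadingCoeff.eval s) := by
  unfold lcC
  rw [eval_map, eval₂_at_apply]

theorem evalEval_fC (f : ℚ[X][Y]) (s x : ℚ) :
    (fC f).evalEval (algebraMap ℚ ℂ s) (algebraMap ℚ ℂ x) = algebraMap ℚ ℂ (f.evalEval s x) :=
  map_mapRingHom_evalEval (algebraMap ℚ ℂ) f s x

theorem spec_fC (f : ℚ[X][Y]) (s : ℚ) :
    (fC f).map (evalRingHom (algebraMap ℚ ℂ s)) =
      (f.map (evalRingHom s)).map (algebraMap ℚ ℂ) := by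
  unfold fC
  rw [Polynomial.map_map, Polynomial.map_map]
  congr 1
  ext a
  · simp
  · simp

/-- The analytic package. -/
structure Pack (f : ℚ[X][Y]) (s₀ M : ℚ) where
  c : ℕ
  hc0 : 0 < c
  ψ : Fin f.natDegree → ℂ → ℂ
  η : Fin f.natDegree → ℕ → ℂ
  A : ℝ
  ρ : ℝ
  hA : 0 ≤ A
  hρ : 0 < ρ
  bound : ∀ i k, ‖η i k‖ * ρ ^ k ≤ A
  hasSum : ∀ i (t : ℂ), ‖t‖ < ρ → HasSum (fun k => η i k * t ^ k)
    ((c : ℂ) * (lcC f).eval (algebraMap ℚ ℂ s₀ + t) * ψ i (algebraMap ℚ ℂ s₀ + t))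
  isRoot : ∀ i (t : ℂ), ‖t‖ < ρ →
    (fC f).evalEval (algebraMap ℚ ℂ s₀ + t) (ψ i (algebraMap ℚ ℂ s₀ + t)) = 0
  allRoots : ∀ (t : ℂ), ‖t‖ < ρ → ∀ x : ℂ, (fC f).evalEval (algebraMap ℚ ℂ s₀ + t) x = 0 →
    ∃ i, x = ψ i (algebraMap ℚ ℂ s₀ + t)
  lead_ne : ∀ (t : ℂ), ‖t‖ < ρ → (lcC f).eval (algebraMap ℚ ℂ s₀ + t) ≠ 0
  isInt : ∀ u : ℤ, u ≠ 0 → ∀ x : ℚ, (f.map (evalRingHom (s₀ + M / u))).eval x = 0 →
    ∃ w : ℤ, (c : ℚ) * (u : ℚ) ^ Homog.sDeg f * f.leadingCoeff.eval (s₀ + M / u) * x = w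

theorem exists_pack (f : ℚ[X][Y]) (s₀ : ℚ) (hlead : f.leadingCoeff.eval s₀ ≠ 0)
    (hsep : (f.map (evalRingHom s₀)).Separable) (M : ℚ) : Nonempty (Pack f s₀ M) := by
  obtain ⟨c, hc0, hc⟩ := Homog.exists_den f s₀ M
  have hleadC : (fC f).leadingCoeff.eval (algebraMap ℚ ℂ s₀) ≠ 0 := by
    rw [leadingCoeff_fC, lcC_eval]
    exact (_root_.map_ne_zero _).2 hlead
  have hsepC : ((fC f).map (evalRingHom (algebraMap ℚ ℂ s₀))).Separable := by
    rw [spec_fC]; exact hsep.map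
  obtain ⟨ψ', hψa', hroot', hall'⟩ := BranchAll.exists_branches (fC f) (algebraMap ℚ ℂ s₀) hleadC hsepC
  let ψ : Fin f.natDegree → ℂ → ℂ := fun i => ψ' (Fin.cast (natDegree_fC f).symm i)
  have hψa : ∀ i, AnalyticAt ℂ (ψ i) (algebraMap ℚ ℂ s₀) := fun i => hψa' _
  have hh : ∀ i, AnalyticAt ℂ (fun s => (c : ℂ) * (lcC f).eval s * ψ i s) (algebraMap ℚ ℂ s₀) :=
    fun i => (analyticAt_const.mul
      ((AnalyticOnNhd.eval_polynomial (𝕜 := ℂ) (lcC f)) _ (Set.mem_univ _))).mul (hψa i)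
  choose η A hA hser using fun i => SeriesAt.eventually_series (hh i)
  have ev1 := eventually_all.2 hser
  have ev2 := SeriesAt.eventually_radius hroot'
  have ev3 := SeriesAt.eventually_radius hall'
  have ev4 : ∀ᶠ ρ in 𝓝[>] (0 : ℝ), ∀ t : ℂ, ‖t‖ < ρ →
      (lcC f).eval (algebraMap ℚ ℂ s₀ + t) ≠ 0 := by
    have : (lcC f).eval (algebraMap ℚ ℂ s₀) ≠ 0 := by rwa [← leadingCoeff_fC]
    exact SeriesAt.eventually_radius (P := fun s => (lcC f).eval s ≠ 0)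
      (((lcC f).continuous.continuousAt).eventually_ne this)
  obtain ⟨ρ, ⟨⟨⟨⟨h1, h2⟩, h3⟩, h4⟩, hρ⟩⟩ :=
    ((((ev1.and ev2).and ev3).and ev4).and self_mem_nhdsWithin).exists
  refine ⟨{
    c := c
    hc0 := hc0
    ψ := ψ
    η := η
    A := ∑ i, A i
    ρ := ρ
    hA := Finset.sum_nonneg fun i _ => hA i
    hρ := hρ
    bound := fun i k => ((h1 i).1 k).trans
      (Finset.single_le_sum (f := A) (fun j _ => hA j) (Finset.mem_univ i))
    hasSum := fun i t ht => (h1 i).2 t ht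
    isRoot := fun i t ht => h2 t ht _
    allRoots := fun t ht x hx => by
      obtain ⟨j, hj⟩ := h3 t ht x hx
      exact ⟨Fin.cast (natDegree_fC f) j, by simpa [ψ] using hj⟩
    lead_ne := fun t ht => h4 t ht
    isInt := fun u hu x hx => Homog.root_isInt f s₀ M c hc u hu x hx }⟩

end

end Fermat.Agent.SW.HIT.Expand
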