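import Fermat.Agent.SW.HIT.Expand

/-!
# Interface (1): a rational root at `s₀ + M/u` gives an integer value of a branch series
-/

namespace Fermat.Agent.SW.HIT.Expand

open Polynomial Filter Topology
open scoped Polynomial.Bivariate

noncomputable section

variable {f : ℚ[X][Y]} {s₀ M : ℚ}

/-- Coefficients of the series in `u⁻¹`: `Y_i(u) = u^d * Σ_k g i k * u⁻ᵏ`. -/
def Pack.g (P : Pack f s₀ M) (i : Fin f.natDegree) (k : ℕ) : ℂ :=
  P.η i k * (algebraMap ℚ ℂ M) ^ k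

theorem norm_algebraMap_rat (q : ℚ) : ‖algebraMap ℚ ℂ q‖ = |(q : ℝ)| := by
  rw [eq_ratCast, Complex.norm_ratCast]

theorem Pack.norm_g_le (P : Pack f s₀ M) (i : Fin f.natDegree) (k : ℕ) :
    ‖P.g i k‖ ≤ P.A * (|(M : ℝ)| / P.ρ) ^ k := by
  unfold Pack.g
  rw [norm_mul, norm_pow, norm_algebraMap_rat, div_pow, ← mul_div_assoc, le_div_iff₀ (pow_pos P.hρ k)]
  calc ‖P.η i k‖ * |(M : ℝ)| ^ k * P.ρ ^ k = (‖P.η i k‖ * P.ρ ^ k) * |(M : ℝ)| ^ k := by ring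
    _ ≤ P.A * |(M : ℝ)| ^ k :=
      mul_le_mul_of_nonneg_right (P.bound i k) (pow_nonneg (abs_nonneg _) k)

/-- the point `t = M/u` is in the disc as soon as `|M| / ρ < u`. -/
theorem Pack.norm_t_lt (P : Pack f s₀ M) (u : ℤ) (hu : |(M : ℝ)| / P.ρ < u) :
    ‖algebraMap ℚ ℂ (M / u)‖ < P.ρ := by
  have hu0 : (0 : ℝ) < u := lt_of_le_of_lt (div_nonneg (abs_nonneg _) P.hρ.le) hu
  rw [norm_algebraMap_rat]
  push_cast
  rw [abs_div, abs_of_pos hu0, div_lt_iff₀ hu0]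
  rw [div_lt_iff₀ P.hρ] at hu
  linarith

theorem Pack.hasSum_of_root (P : Pack f s₀ M) (u : ℤ) (hu : |(M : ℝ)| / P.ρ < u) (x : ℚ)
    (hx : (f.map (evalRingHom (s₀ + M / u))).eval x = 0) :
    ∃ i, ∃ w : ℤ, HasSum (fun k => P.g i k * ((u : ℂ)⁻¹) ^ k)
      ((w : ℂ) / (u : ℂ) ^ Homog.sDeg f) := by
  have hu0 : (0 : ℝ) < u := lt_of_le_of_lt (div_nonneg (abs_nonneg _) P.hρ.le) hu
  have hune : u ≠ 0 := by
    intro h; rw [h] at hu0; simp at hu0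
  have huC : (u : ℂ) ≠ 0 := by exact_mod_cast hune
  set t : ℂ := algebraMap ℚ ℂ (M / u) with ht
  have htlt : ‖t‖ < P.ρ := P.norm_t_lt u hu
  have hs1 : algebraMap ℚ ℂ (s₀ + M / u) = algebraMap ℚ ℂ s₀ + t := by rw [map_add]
  -- `x` is a root over `ℂ`
  have hxC : (fC f).evalEval (algebraMap ℚ ℂ s₀ + t) (algebraMap ℚ ℂ x) = 0 := by
    rw [← hs1, evalEval_fC, ← map_evalRingHom_eval, hx, map_zero]
  obtain ⟨i, hi⟩ := P.allRoots t htlt _ hxC
  obtain ⟨w, hw⟩ := P.isInt u hune x hx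
  refine ⟨i, w, ?_⟩
  have hsum := P.hasSum i t htlt
  rw [← hi] at hsum
  -- value
  have hval : (P.c : ℂ) * (lcC f).eval (algebraMap ℚ ℂ s₀ + t) * algebraMap ℚ ℂ x =
      (w : ℂ) / (u : ℂ) ^ Homog.sDeg f := by
    rw [← hs1, lcC_eval, eq_div_iff (pow_ne_zero _ huC)]
    have := congrArg (algebraMap ℚ ℂ) hw
    simp only [map_mul, map_pow, map_natCast, map_intCast] at this
    rw [← this]; ring
  rw [hval] at hsum
  convert hsum using 2 with k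
  unfold Pack.g
  rw [ht, map_div₀, map_intCast, div_eq_mul_inv, mul_pow]
  ring

end

end Fermat.Agent.SW.HIT.Expand
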