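import Mathlib

/-!
# A complex polynomial with integer values at `deg + 1` integers has rational coefficients
-/

namespace Fermat.Agent.SW.HIT.RatCoeff

open Polynomial

theorem exists_rat_poly (p : ℂ[X]) (d : ℕ) (hp : p.degree < (d + 1 : ℕ))
    (v : Fin (d + 1) → ℤ) (hv : Function.Injective v) (z : Fin (d + 1) → ℤ)
    (hz : ∀ j, p.eval (v j : ℂ) = z j) :
    ∃ q : ℚ[X], q.map (algebraMap ℚ ℂ) = p := by
  classical
  have hvq : Set.InjOn (fun j => (v j : ℚ)) (Finset.univ : Finset (Fin (d + 1))) := by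
    intro a _ b _ h
    have h' : (v a : ℚ) = (v b : ℚ) := h
    exact hv (by exact_mod_cast h')
  have hvc : Set.InjOn (fun j => (v j : ℂ)) (Finset.univ : Finset (Fin (d + 1))) := by
    intro a _ b _ h
    have h' : (v a : ℂ) = (v b : ℂ) := h
    exact hv (by exact_mod_cast h')
  refine ⟨Lagrange.interpolate Finset.univ (fun j => (v j : ℚ)) (fun j => (z j : ℚ)), ?_⟩
  symm
  refine Polynomial.eq_of_degrees_lt_of_eval_index_eq (Finset.univ) hvc ?_ ?_ ?_
  · simpa using hp
  · rw [degree_map]
    simpa using Lagrange.degree_interpolate_lt (r := fun j => (z j : ℚ)) hvq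
  · intro j _
    rw [hz j]
    have h1 := Lagrange.eval_interpolate_at_node (r := fun j => (z j : ℚ)) hvq (Finset.mem_univ j)
    have h2 : (v j : ℂ) = algebraMap ℚ ℂ (v j : ℚ) := by simp
    rw [h2, eval_map_algebraMap, aeval_algebraMap_apply]
    have h3 : aeval ((v j : ℤ) : ℚ)
        (Lagrange.interpolate Finset.univ (fun j => (v j : ℚ)) fun j => (z j : ℚ)) = (z j : ℚ) := by
      rw [← h1]; rfl
    rw [h3]
    simp

end Fermat.Agent.SW.HIT.RatCoeff
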