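import Fermat.Agent.SW.HIT.PackUse
import Fermat.Agent.SW.HIT.RatCoeff

/-!
# Polynomial tails, part A: rationality of the coefficients

If the series of branch `i` has no tail (`g i k = 0` for `k > d`) and its polynomial part takes
integer values at `d + 1` distinct integers, then all `η i k` are rational.
-/

namespace Fermat.Agent.SW.HIT.Expand

open Polynomial Filter Topology
open scoped Polynomial.Bivariate

noncomputable section

variable {f : ℚ[X][Y]} {s₀ M : ℚ}

/-- The polynomial part `u ↦ u^d * Σ_{k ≤ d} g_k u⁻ᵏ = Σ_{m ≤ d} g_{d-m} u^m`. -/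
def Pack.polyPart (P : Pack f s₀ M) (i : Fin f.natDegree) (d : ℕ) : ℂ[X] :=
  ∑ m ∈ Finset.range (d + 1), C (P.g i (d - m)) * X ^ m

theorem Pack.polyPart_coeff (P : Pack f s₀ M) (i : Fin f.natDegree) (d m : ℕ) (hm : m ≤ d) :
    (P.polyPart i d).coeff m = P.g i (d - m) := by
  unfold Pack.polyPart
  rw [finsetSum_coeff]
  rw [Finset.sum_eq_single m]
  · simp
  · intro b _ hb
    rw [coeff_C_mul_X_pow, if_neg (Ne.symm hb)]
  · intro h
    exact absurd (Finset.mem_range.2 (Nat.lt_succ_of_le hm)) h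

theorem Pack.polyPart_degree_lt (P : Pack f s₀ M) (i : Fin f.natDegree) (d : ℕ) :
    (P.polyPart i d).degree < (d + 1 : ℕ) := by
  rw [degree_lt_iff_coeff_zero]
  intro m hm
  unfold Pack.polyPart
  rw [finsetSum_coeff]
  refine Finset.sum_eq_zero fun b hb => ?_
  have : b < d + 1 := Finset.mem_range.1 hb
  rw [coeff_C_mul_X_pow, if_neg (by omega)]

theorem Pack.polyPart_eval (P : Pack f s₀ M) (i : Fin f.natDegree) (d : ℕ) (u : ℂ) (hu : u ≠ 0) :
    (P.polyPart i d).eval u =
      u ^ d * ∑ k ∈ Finset.range (d + 1), P.g i k * (u⁻¹) ^ k := by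
  unfold Pack.polyPart
  rw [eval_finsetSum, Finset.mul_sum, ← Finset.sum_range_reflect]
  refine Finset.sum_congr rfl fun m hm => ?_
  have hm' : m < d + 1 := Finset.mem_range.1 hm
  have e1 : d + 1 - 1 - m = d - m := by omega
  simp only [eval_mul, eval_C, eval_pow, eval_X, e1]
  have e2 : u ^ d = u ^ (d - m) * u ^ m := by rw [← pow_add]; congr 1; omega
  have e3 : d - (d - m) = m := by omega
  rw [e3, e2, inv_pow]
  field_simp

/-- **Rationality.** -/
theorem Pack.exists_rat_g (P : Pack f s₀ M) (i : Fin f.natDegree) (d : ℕ)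
    (v : Fin (d + 1) → ℤ) (hv : Function.Injective v) (hv0 : ∀ j, v j ≠ 0)
    (hint : ∀ j, ∃ z : ℤ, ∑ k ∈ Finset.range (d + 1), P.g i k * ((v j : ℂ)⁻¹) ^ k =
      (z : ℂ) / (v j : ℂ) ^ d) :
    ∃ gq : ℕ → ℚ, ∀ k, k ≤ d → P.g i k = algebraMap ℚ ℂ (gq k) := by
  choose z hz using hint
  have hval : ∀ j, (P.polyPart i d).eval (v j : ℂ) = z j := by
    intro j
    have hne : (v j : ℂ) ≠ 0 := by exact_mod_cast hv0 j
    rw [P.polyPart_eval i d _ hne, hz j]
    field_simp
  obtain ⟨q, hq⟩ := RatCoeff.exists_rat_poly (P.polyPart i d) d (P.polyPart_degree_lt i d) v hv z hval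
  refine ⟨fun k => q.coeff (d - k), fun k hk => ?_⟩
  have h1 := P.polyPart_coeff i d (d - k) (Nat.sub_le d k)
  have e : d - (d - k) = k := by omega
  rw [e] at h1
  rw [← h1, ← hq, coeff_map]

end

end Fermat.Agent.SW.HIT.Expand
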