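import Fermat.Agent.SW.HIT.PolyTailA

/-!
# Polynomial tails, part B: a polynomial branch with rational coefficients is a root in `ℚ(s)`
-/

namespace Fermat.Agent.SW.HIT.Expand

open Polynomial Filter Topology
open scoped Polynomial.Bivariate

noncomputable section

variable {f : ℚ[X][Y]} {s₀ M : ℚ}

/-- The rational polynomial `H(t) = Σ_{k ≤ d} ηq_k t^k`. -/
def Hq (ηq : ℕ → ℚ) (d : ℕ) : ℚ[X] := ∑ k ∈ Finset.range (d + 1), C (ηq k) * X ^ k

theorem Hq_eval_C (ηq : ℕ → ℚ) (d : ℕ) (t : ℚ) :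
    algebraMap ℚ ℂ ((Hq ηq d).eval t) =
      ∑ k ∈ Finset.range (d + 1), algebraMap ℚ ℂ (ηq k) * (algebraMap ℚ ℂ t) ^ k := by
  unfold Hq
  rw [eval_finsetSum, map_sum]
  refine Finset.sum_congr rfl fun k _ => ?_
  simp only [eval_mul, eval_C, eval_pow, eval_X, map_mul, map_pow]

/-- If `η i k` is rational for `k ≤ d` and zero beyond, then `h_i(s₀ + t) = H(t)` on the disc. -/
theorem Pack.h_eq_Hq (P : Pack f s₀ M) (i : Fin f.natDegree) (d : ℕ) (ηq : ℕ → ℚ)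
    (h1 : ∀ k, k ≤ d → P.η i k = algebraMap ℚ ℂ (ηq k)) (h2 : ∀ k, d < k → P.η i k = 0)
    (t : ℚ) (ht : ‖algebraMap ℚ ℂ t‖ < P.ρ) :
    (P.c : ℂ) * (lcC f).eval (algebraMap ℚ ℂ s₀ + algebraMap ℚ ℂ t) *
        P.ψ i (algebraMap ℚ ℂ s₀ + algebraMap ℚ ℂ t) = algebraMap ℚ ℂ ((Hq ηq d).eval t) := by
  have hs := P.hasSum i (algebraMap ℚ ℂ t) ht
  have hfin : HasSum (fun k => P.η i k * (algebraMap ℚ ℂ t) ^ k)
      (∑ k ∈ Finset.range (d + 1), P.η i k * (algebraMap ℚ ℂ t) ^ k) := by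
    apply hasSum_sum_of_ne_finset_zero
    intro k hk
    have : d < k := by
      by_contra h
      exact hk (Finset.mem_range.2 (by omega))
    rw [h2 k this, zero_mul]
  rw [hs.unique hfin, Hq_eval_C]
  refine Finset.sum_congr rfl fun k hk => ?_
  rw [h1 k (Nat.lt_succ_iff.1 (Finset.mem_range.1 hk))]

/-- The numerator polynomial `N(s) = Σ_j f_j(s) H(s - s₀)^j (c lc(s))^(n-j)`. -/
def Nq (f : ℚ[X][Y]) (s₀ : ℚ) (c : ℕ) (H : ℚ[X]) : ℚ[X] :=
  ∑ j ∈ Finset.range (f.natDegree + 1),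
    f.coeff j * (H.comp (X - C s₀)) ^ j * (C (c : ℚ) * f.leadingCoeff) ^ (f.natDegree - j)

theorem evalEval_fC_eq_sum (f : ℚ[X][Y]) (s : ℚ) (x : ℂ) :
    (fC f).evalEval (algebraMap ℚ ℂ s) x =
      ∑ j ∈ Finset.range (f.natDegree + 1), algebraMap ℚ ℂ ((f.coeff j).eval s) * x ^ j := by
  have := BranchIFT.F2_eq_sum (fC f) (algebraMap ℚ ℂ s, x)
  rw [BranchIFT.F2_apply, natDegree_fC] at this
  rw [this]
  refine Finset.sum_congr rfl fun j _ => ?_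
  simp only
  congr 1
  unfold fC
  rw [coeff_map, coe_mapRingHom, eval_map, eval₂_at_apply]

/-- `N` vanishes at `s₁ = s₀ + t` whenever `h_i(s₁) = H(t)` there. -/
theorem Pack.Nq_eval_eq_zero (P : Pack f s₀ M) (i : Fin f.natDegree) (H : ℚ[X]) (t : ℚ)
    (ht : ‖algebraMap ℚ ℂ t‖ < P.ρ)
    (hH : (P.c : ℂ) * (lcC f).eval (algebraMap ℚ ℂ s₀ + algebraMap ℚ ℂ t) *
        P.ψ i (algebraMap ℚ ℂ s₀ + algebraMap ℚ ℂ t) = algebraMap ℚ ℂ (H.eval t)) :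
    (Nq f s₀ P.c H).eval (s₀ + t) = 0 := by
  apply (algebraMap ℚ ℂ).injective
  rw [map_zero]
  have hs1 : algebraMap ℚ ℂ s₀ + algebraMap ℚ ℂ t = algebraMap ℚ ℂ (s₀ + t) := by rw [map_add]
  have hroot := P.isRoot i (algebraMap ℚ ℂ t) ht
  rw [hs1] at hroot hH
  rw [evalEval_fC_eq_sum] at hroot
  set Ψ := P.ψ i (algebraMap ℚ ℂ (s₀ + t)) with hΨ
  set L := (lcC f).eval (algebraMap ℚ ℂ (s₀ + t)) with hL
  have hLq : algebraMap ℚ ℂ (f.leadingCoeff.eval (s₀ + t)) = L := by rw [hL, lcC_eval]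
  unfold Nq
  rw [eval_finsetSum, map_sum]
  have : ∀ j ∈ Finset.range (f.natDegree + 1),
      algebraMap ℚ ℂ ((f.coeff j * (H.comp (X - C s₀)) ^ j *
        (C (P.c : ℚ) * f.leadingCoeff) ^ (f.natDegree - j)).eval (s₀ + t)) =
      ((P.c : ℂ) * L) ^ f.natDegree * (algebraMap ℚ ℂ ((f.coeff j).eval (s₀ + t)) * Ψ ^ j) := by
    intro j hj
    have hj' : j ≤ f.natDegree := Nat.lt_succ_iff.1 (Finset.mem_range.1 hj)
    simp only [eval_mul, eval_pow, eval_comp, eval_sub, eval_X, eval_C, add_sub_cancel_left,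
      map_mul, map_pow, map_natCast, eval_natCast]
    rw [← hH, hLq]
    have e : ((P.c : ℂ) * L) ^ f.natDegree =
        ((P.c : ℂ) * L) ^ j * ((P.c : ℂ) * L) ^ (f.natDegree - j) := by
      rw [← pow_add, Nat.add_sub_cancel' hj']
    rw [e]
    ring
  rw [Finset.sum_congr rfl this, ← Finset.mul_sum, hroot, mul_zero]

end

end Fermat.Agent.SW.HIT.Expand
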