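import Fermat.Agent.SW.HIT.PolyTailB

/-!
# Polynomial tails, part C: the contradiction with "no root in `ℚ(s)`"
-/

namespace Fermat.Agent.SW.HIT.Expand

open Polynomial Filter Topology
open scoped Polynomial.Bivariate

noncomputable section

variable {f : ℚ[X][Y]} {s₀ M : ℚ}

/-- `N = 0`: it vanishes at the infinitely many points `s₀ + M / u`. -/
theorem Pack.Nq_eq_zero (P : Pack f s₀ M) (hM : M ≠ 0) (i : Fin f.natDegree) (H : ℚ[X])
    (hH : ∀ t : ℚ, ‖algebraMap ℚ ℂ t‖ < P.ρ →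
      (P.c : ℂ) * (lcC f).eval (algebraMap ℚ ℂ s₀ + algebraMap ℚ ℂ t) *
        P.ψ i (algebraMap ℚ ℂ s₀ + algebraMap ℚ ℂ t) = algebraMap ℚ ℂ (H.eval t)) :
    Nq f s₀ P.c H = 0 := by
  obtain ⟨U, hU⟩ := exists_nat_gt (|(M : ℝ)| / P.ρ)
  apply Polynomial.eq_zero_of_infinite_isRoot
  have hinj : Function.Injective fun n : ℕ => s₀ + M / ((n + U + 1 : ℕ) : ℚ) := by
    intro a b hab
    simp only [add_right_inj] at hab
    have ha : ((a + U + 1 : ℕ) : ℚ) ≠ 0 := by positivity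
    have hb : ((b + U + 1 : ℕ) : ℚ) ≠ 0 := by positivity
    rw [div_eq_div_iff ha hb] at hab
    have := mul_left_cancel₀ hM hab
    have h2 : (b + U + 1 : ℕ) = (a + U + 1 : ℕ) := by exact_mod_cast this
    omega
  refine Set.infinite_of_injective_forall_mem hinj fun n => ?_
  have hlt : |(M : ℝ)| / P.ρ < ((n + U + 1 : ℕ) : ℤ) := by
    push_cast
    have : (0 : ℝ) ≤ n := Nat.cast_nonneg n
    linarith
  have ht := P.norm_t_lt ((n + U + 1 : ℕ) : ℤ) hlt
  have ht' : ‖algebraMap ℚ ℂ (M / ((n + U + 1 : ℕ) : ℚ))‖ < P.ρ := by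
    simpa using ht
  exact P.Nq_eval_eq_zero i H _ ht' (hH _ ht')

/-- From `N = 0` to a root in `ℚ(s)`. -/
theorem root_of_Nq_eq_zero (f : ℚ[X][Y]) (s₀ : ℚ) (c : ℕ) (hc : 0 < c) (H : ℚ[X])
    (hlc : f.leadingCoeff ≠ 0) (hN : Nq f s₀ c H = 0) :
    ∃ r : RatFunc ℚ, (f.map (algebraMap ℚ[X] (RatFunc ℚ))).eval r = 0 := by
  set ι := algebraMap ℚ[X] (RatFunc ℚ) with hι
  have hLne : C (c : ℚ) * f.leadingCoeff ≠ 0 :=
    mul_ne_zero (by simpa using hc.ne') hlc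
  have hL : ι (C (c : ℚ) * f.leadingCoeff) ≠ 0 := by
    rw [hι]
    exact (map_ne_zero_iff _ (IsFractionRing.injective ℚ[X] (RatFunc ℚ))).2 hLne
  set Lr := ι (C (c : ℚ) * f.leadingCoeff) with hLr
  set Hr := ι (H.comp (X - C s₀)) with hHr
  refine ⟨Hr / Lr, ?_⟩
  have h1 : (f.map ι).eval (Hr / Lr) =
      ∑ j ∈ Finset.range (f.natDegree + 1), ι (f.coeff j) * (Hr / Lr) ^ j := by
    rw [eval_eq_sum_range' (Nat.lt_succ_of_le natDegree_map_le)]
    refine Finset.sum_congr rfl fun j _ => ?_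
    rw [coeff_map]
  have h2 : Lr ^ f.natDegree * (f.map ι).eval (Hr / Lr) = ι (Nq f s₀ c H) := by
    rw [h1, Finset.mul_sum]
    unfold Nq
    rw [map_sum]
    refine Finset.sum_congr rfl fun j hj => ?_
    have hj' : j ≤ f.natDegree := Nat.lt_succ_iff.1 (Finset.mem_range.1 hj)
    rw [map_mul, map_mul, map_pow, map_pow, ← hHr, ← hLr, div_pow]
    have e : Lr ^ f.natDegree = Lr ^ j * Lr ^ (f.natDegree - j) := by
      rw [← pow_add, Nat.add_sub_cancel' hj']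
    rw [e]
    field_simp
  rw [hN, map_zero] at h2
  exact (mul_eq_zero.1 h2).resolve_left (pow_ne_zero _ hL)

/-- **(H4)** A branch without tail cannot take integer values at `d + 1` distinct large integers
(`d = sDeg f`), if `f` has no root in `ℚ(s)`. -/
theorem Pack.poly_tail_false (P : Pack f s₀ M) (hM : M ≠ 0)
    (hroot : ∀ r : RatFunc ℚ, (f.map (algebraMap ℚ[X] (RatFunc ℚ))).eval r ≠ 0)
    (i : Fin f.natDegree) (htail : ∀ k, Homog.sDeg f < k → P.g i k = 0)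
    (v : Fin (Homog.sDeg f + 1) → ℤ) (hv : Function.Injective v) (hv0 : ∀ j, v j ≠ 0)
    (hint : ∀ j, ∃ z : ℤ, ∑ k ∈ Finset.range (Homog.sDeg f + 1), P.g i k * ((v j : ℂ)⁻¹) ^ k =
      (z : ℂ) / (v j : ℂ) ^ Homog.sDeg f) : False := by
  obtain ⟨gq, hgq⟩ := P.exists_rat_g i (Homog.sDeg f) v hv hv0 hint
  have hMC : algebraMap ℚ ℂ M ≠ 0 := (_root_.map_ne_zero _).2 hM
  -- rational `η`
  have h1 : ∀ k, k ≤ Homog.sDeg f → P.η i k = algebraMap ℚ ℂ (gq k / M ^ k) := by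
    intro k hk
    have := hgq k hk
    unfold Pack.g at this
    rw [map_div₀, map_pow, eq_div_iff (pow_ne_zero _ hMC), this]
  have h2 : ∀ k, Homog.sDeg f < k → P.η i k = 0 := by
    intro k hk
    have := htail k hk
    unfold Pack.g at this
    exact (mul_eq_zero.1 this).resolve_right (pow_ne_zero _ hMC)
  have hN := P.Nq_eq_zero hM i (Hq (fun k => gq k / M ^ k) (Homog.sDeg f))
    (fun t ht => P.h_eq_Hq i (Homog.sDeg f) _ h1 h2 t ht)
  have hlc : f.leadingCoeff ≠ 0 := by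
    intro h0
    have := P.lead_ne 0 (by simpa using P.hρ)
    apply this
    unfold lcC
    rw [h0]; simp
  obtain ⟨r, hr⟩ := root_of_Nq_eq_zero f s₀ P.c P.hc0 _ hlc hN
  exact hroot r hr

end

end Fermat.Agent.SW.HIT.Expand
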