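import Mathlib

/-!
# Elementary arithmetic leaves for the Hilbert-irreducibility block

* `lead_mul_root_isInt`: rational root theorem in the form `z_n * x ∈ ℤ`.
* `exists_den_eval`: a rational polynomial has a common denominator for its values at integers.
-/

namespace Fermat.Agent.SW.HIT.RatRoot

open Polynomial

theorem exists_num_den (x : ℚ) :
    ∃ (a : ℤ) (b : ℕ), b ≠ 0 ∧ IsCoprime a (b : ℤ) ∧ x = (a : ℚ) / (b : ℚ) :=
  ⟨x.num, x.den, x.den_ne_zero, by rw [Int.isCoprime_iff_gcd_eq_one]; exact x.reduced,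
    (Rat.num_div_den x).symm⟩

/-- Rational root theorem: if `∑_{i ≤ n} z_i x^i = 0` with integers `z_i`, then `z_n * x` is an
integer. -/
theorem lead_mul_root_isInt (z : ℕ → ℤ) (n : ℕ) (x : ℚ)
    (h : ∑ i ∈ Finset.range (n + 1), (z i : ℚ) * x ^ i = 0) : ∃ w : ℤ, (z n : ℚ) * x = w := by
  obtain ⟨a, b, hb0, hcop0, rfl⟩ := exists_num_den x
  have hb : (b : ℚ) ≠ 0 := by exact_mod_cast hb0
  -- clear denominators
  have h1 : ∑ i ∈ Finset.range (n + 1), (z i : ℚ) * (a : ℚ) ^ i * (b : ℚ) ^ (n - i) = 0 := by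
    have h2 : (∑ i ∈ Finset.range (n + 1), (z i : ℚ) * ((a : ℚ) / b) ^ i) * (b : ℚ) ^ n = 0 := by
      rw [h, zero_mul]
    rw [Finset.sum_mul] at h2
    rw [← h2]
    refine Finset.sum_congr rfl fun i hi => ?_
    have hi' : i ≤ n := Nat.lt_succ_iff.1 (Finset.mem_range.1 hi)
    have e : (b : ℚ) ^ n = (b : ℚ) ^ i * (b : ℚ) ^ (n - i) := by
      rw [← pow_add, Nat.add_sub_cancel' hi']
    rw [e, div_pow]
    field_simp
  have h3 : ∑ i ∈ Finset.range (n + 1), z i * a ^ i * (b : ℤ) ^ (n - i) = 0 := by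
    exact_mod_cast h1
  -- den ∣ z n * num ^ n
  have h4 : (b : ℤ) ∣ z n * a ^ n := by
    rw [Finset.sum_range_succ, Nat.sub_self, pow_zero, mul_one] at h3
    have h5 : (b : ℤ) ∣ ∑ i ∈ Finset.range n, z i * a ^ i * (b : ℤ) ^ (n - i) := by
      refine Finset.dvd_sum fun i hi => ?_
      have hi' : i < n := Finset.mem_range.1 hi
      exact Dvd.dvd.mul_left (dvd_pow_self _ (by omega)) _
    have h6 : z n * a ^ n = -∑ i ∈ Finset.range n, z i * a ^ i * (b : ℤ) ^ (n - i) := by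
      linarith
    rw [h6]
    exact (dvd_neg).2 h5
  have hcop : IsCoprime (b : ℤ) (a ^ n) := (hcop0.symm).pow_right
  have h7 : (b : ℤ) ∣ z n := hcop.dvd_of_dvd_mul_right h4
  obtain ⟨w, hw⟩ := h7
  refine ⟨w * a, ?_⟩
  rw [hw]
  push_cast
  field_simp

/-- A rational polynomial has a common denominator for all its values at integers. -/
theorem exists_den_eval (q : ℚ[X]) :
    ∃ c : ℕ, 0 < c ∧ ∀ u : ℤ, ∃ z : ℤ, (c : ℚ) * q.eval (u : ℚ) = z := by
  classical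
  refine ⟨∏ j ∈ q.support, (q.coeff j).den, Finset.prod_pos fun j _ => (q.coeff j).den_pos, ?_⟩
  intro u
  rw [eval_eq_sum, Polynomial.sum, Finset.mul_sum]
  have : ∀ j ∈ q.support, ∃ z : ℤ,
      ((∏ j ∈ q.support, (q.coeff j).den : ℕ) : ℚ) * (q.coeff j * (u : ℚ) ^ j) = z := by
    intro j hj
    obtain ⟨m, hm⟩ := Finset.dvd_prod_of_mem (fun j => (q.coeff j).den) hj
    obtain ⟨a, b, hb0, -, hab⟩ : ∃ (a : ℤ) (b : ℕ), b ≠ 0 ∧ True ∧
        q.coeff j = (a : ℚ) / (b : ℚ) ∧ (q.coeff j).den = b :=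
      ⟨(q.coeff j).num, (q.coeff j).den, (q.coeff j).den_ne_zero, trivial,
        (Rat.num_div_den _).symm, rfl⟩
    refine ⟨m * a * u ^ j, ?_⟩
    rw [hm, hab.2, hab.1]
    have hd : (b : ℚ) ≠ 0 := by exact_mod_cast hb0
    push_cast
    field_simp
  choose! zf hzf using this
  refine ⟨∑ j ∈ q.support, zf j, ?_⟩
  push_cast
  refine Finset.sum_congr rfl fun j hj => ?_
  have := hzf j hj
  push_cast at this
  exact this

/-- common denominator for a finite family -/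
theorem exists_den_eval_family {ι : Type*} (S : Finset ι) (q : ι → ℚ[X]) :
    ∃ c : ℕ, 0 < c ∧ ∀ i ∈ S, ∀ u : ℤ, ∃ z : ℤ, (c : ℚ) * (q i).eval (u : ℚ) = z := by
  classical
  choose c hc0 hc using fun i => exists_den_eval (q i)
  refine ⟨∏ i ∈ S, c i, Finset.prod_pos fun i _ => hc0 i, ?_⟩
  intro i hi u
  obtain ⟨m, hm⟩ := Finset.dvd_prod_of_mem c hi
  obtain ⟨z, hz⟩ := hc i u
  refine ⟨m * z, ?_⟩
  rw [hm]
  push_cast
  rw [← hz]
  ring

end Fermat.Agent.SW.HIT.RatRoot
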